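/-
RIBET / W-DEG (helper801), part 6: the KUMMER FORM of the degeneracy maps (input of W-NC / I4).

For a class `x = [D]` with `m • D = div f` (Kummer generator `f`):

    a_* x = 0   ↔   Nm_a f = g ^ m  for some `g ≠ 0` of the lower field

(`K` algebraically closed, functions without zeros and poles constant).  Instances:
`alphaL`, `betaL : J₀(p M') → J₀(M')` with the norms along
`alphaTo`, `betaTo : F_{M'} → F_{p M'}` (`S29.H801`; inclusion, resp. `t ↦ t ^ p`).
-/
import Mathlib
import Fermat.Agent.Ribet.H801.Deg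
import Fermat.Agent.S29.H395.KummerCorr
import Fermat.Agent.S18.H144.ConstF

set_option autoImplicit false
set_option linter.style.haveILetI false

noncomputable section

namespace Fermat.Agent.Ribet.H801

open AlgebraicCurve ModularCurve Fermat.Agent.S37.H818 Fermat.Agent.S29.H801
open Fermat.Agent.Lib.HI Fermat.Agent.S29.H395

section Generic

variable {K F F₁ : Type*} [Field K] [Field F] [Field F₁] [Algebra K F] [Algebra K F₁]
variable (a : F →ₐ[K] F₁) (ha : a.toRingHom.IsIntegral)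
  (hfin : FiniteAlong K a) (hN : NormFormulaAlong K a hfin)

theorem ord_pow_nat (v : Place K F) (y : F) (m : ℕ) : v.ord (y ^ m) = m * v.ord y := by
  have := v.ord_zpow y (m : ℤ)
  simpa using this

theorem ord_algebraMap_zero (v : Place K F) {c : K} (hc : c ≠ 0) :
    v.ord (algebraMap K F c) = 0 := by
  have h1 : algebraMap K F c ∈ v.toValuationSubring := v.algebraMap_mem' c
  have h2 : algebraMap K F c⁻¹ ∈ v.toValuationSubring := v.algebraMap_mem' c⁻¹
  have hu : IsUnit (⟨algebraMap K F c, h1⟩ : v.toValuationSubring) := by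
    refine IsUnit.of_mul_eq_one (⟨algebraMap K F c⁻¹, h2⟩ : v.toValuationSubring) ?_
    ext
    show algebraMap K F c * algebraMap K F c⁻¹ = 1
    rw [← map_mul, mul_inv_cancel₀ hc, map_one]
  exact v.ord_coe_unit hu.unit

include hfin hN in
/-- `m • a_* D = div (Nm_a f)` if `m • D = div f`. -/
theorem pushforwardAlong_kummer {m : ℤ} (D : Divisor K F₁) {f : F₁} (hf : f ≠ 0)
    (hD : ∀ w : Place K F₁, m * D w = w.ord f) (v : Place K F) :
    m * Divisor.pushforwardAlong a ha D v = v.ord (normAlong a f) := by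
  have h1 : ∀ w, (m • D) w = w.ord f := fun w => by
    rw [Finsupp.smul_apply, smul_eq_mul]; exact hD w
  have h2 := pushforwardAlong_apply_eq_ord a ha hfin hN hf h1 v
  rw [map_zsmul, Finsupp.smul_apply, smul_eq_mul] at h2
  exact h2

/-- **Kummer form of the kernel of a push-forward.** -/
theorem pushPic0_mk_eq_zero_iff [IsAlgClosed K]
    (hconst : ∀ u : F, u ≠ 0 → (∀ v : Place K F, v.ord u = 0) → ∃ c : K, u = algebraMap K F c)
    {m : ℕ} (hm : m ≠ 0) (D : Divisor.degZero (K := K) (F := F₁)) {f : F₁} (hf : f ≠ 0)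
    (hD : ∀ w : Place K F₁, (m : ℤ) * (D : Divisor K F₁) w = w.ord f) :
    pushPic0 a ha hfin hN (Pic0.mk D) = 0 ↔ ∃ g : F, g ≠ 0 ∧ normAlong a f = g ^ m := by
  have hm' : (m : ℤ) ≠ 0 := by exact_mod_cast hm
  have hNf : normAlong a f ≠ 0 := normAlong_ne_zero a hfin hf
  have key : ∀ v : Place K F,
      (m : ℤ) * (pushDegZero a ha D : Divisor K F) v = v.ord (normAlong a f) := fun v =>
    pushforwardAlong_kummer a ha hfin hN (D : Divisor K F₁) hf hD v
  rw [pushPic0_mk, mk_eq_zero_iff]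
  constructor
  · rintro ⟨g₀, hg₀, hg₀D⟩
    have hu0 : normAlong a f * (g₀ ^ m)⁻¹ ≠ 0 :=
      mul_ne_zero hNf (inv_ne_zero (pow_ne_zero m hg₀))
    obtain ⟨c, hc⟩ := hconst (normAlong a f * (g₀ ^ m)⁻¹) hu0 (fun v => by
      rw [v.ord_mul hNf (inv_ne_zero (pow_ne_zero m hg₀)), v.ord_inv, ord_pow_nat, ← key v,
        hg₀D v]
      ring)
    have hc0 : c ≠ 0 := by
      rintro rfl
      rw [map_zero] at hc
      exact hu0 hc
    obtain ⟨d, hd⟩ := IsAlgClosed.exists_pow_nat_eq c (Nat.pos_of_ne_zero hm)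
    have hd0 : d ≠ 0 := by
      rintro rfl
      rw [zero_pow hm] at hd
      exact hc0 hd.symm
    refine ⟨algebraMap K F d * g₀, mul_ne_zero (by simpa using hd0) hg₀, ?_⟩
    rw [mul_pow, ← map_pow, hd, ← hc, mul_assoc, inv_mul_cancel₀ (pow_ne_zero m hg₀), mul_one]
  · rintro ⟨g, hg, hgf⟩
    refine ⟨g, hg, fun v => ?_⟩
    have h1 := key v
    rw [hgf, ord_pow_nat] at h1
    exact mul_left_cancel₀ hm' h1

/-- Every `m`-torsion class has a Kummer generator. -/
theorem exists_kummer_of_nsmul_eq_zero {m : ℕ} (x : Pic0 K F₁) (hx : m • x = 0) :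
    ∃ (D : Divisor.degZero (K := K) (F := F₁)) (f : F₁), x = Pic0.mk D ∧ f ≠ 0 ∧
      ∀ w : Place K F₁, (m : ℤ) * (D : Divisor K F₁) w = w.ord f := by
  obtain ⟨D, rfl⟩ := Pic0.mk_surjective x
  have h0 : Pic0.mk (m • D) = 0 := hx
  obtain ⟨f, hf, hfD⟩ := mk_eq_zero_iff.1 h0
  refine ⟨D, f, rfl, hf, fun w => ?_⟩
  rw [← hfD w]
  simp [Finsupp.smul_apply]

end Generic

section Modular

local notation "Qb" => AlgebraicClosure ℚ

variable (M p : ℕ) [NeZero M] [NeZero p]

/-- `α_*` with the top level renamed. -/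
def alphaPushTo (N : ℕ) [NeZero N] (h : M * p = N) : JZero N →+ JZero M :=
  pushPic0 (alphaTo Qb M p N h) (alphaTo_integral Qb h (H864.heckeAlphaBarIntegral M p))
    (alphaTo_finite Qb h (H864.finiteAlong_alpha M p))
    (alphaTo_normFormula Qb h (H864.finiteAlong_alpha M p) (H864.normFormulaAlong_alpha M p _))

/-- `β_*` with the top level renamed. -/
def betaPushTo (N : ℕ) [NeZero N] (h : M * p = N) : JZero N →+ JZero M :=
  pushPic0 (betaTo Qb M p N h) (betaTo_integral Qb h (H864.heckeBetaBarIntegral M p))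
    (betaTo_finite Qb h (H864.finiteAlong_beta M p))
    (betaTo_normFormula Qb h (H864.finiteAlong_beta M p) (H864.normFormulaAlong_beta M p _))

theorem alphaPushTo_eq (N : ℕ) [NeZero N] (h : M * p = N) (x : JZero N) :
    alphaPushTo M p N h x = alphaPush M p (jzeroCast h.symm x) := by
  subst h
  rfl

theorem betaPushTo_eq (N : ℕ) [NeZero N] (h : M * p = N) (x : JZero N) :
    betaPushTo M p N h x = betaPush M p (jzeroCast h.symm x) := by
  subst h
  rfl

theorem constOfOrdZero_bar (u : modularFunctionFieldBar M) (hu0 : u ≠ 0)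
    (hu : ∀ v : Place Qb (modularFunctionFieldBar M), v.ord u = 0) :
    ∃ c : Qb, u = algebraMap Qb (modularFunctionFieldBar M) c :=
  Fermat.Agent.S18.H144.constOfOrdZero_modularFunctionFieldBar M u hu0 hu

/-- **Kummer form of `ker α_*`** (any renamed top level). -/
theorem alphaPushTo_mk_eq_zero_iff (N : ℕ) [NeZero N] (h : M * p = N) {m : ℕ} (hm : m ≠ 0)
    (D : Divisor.degZero (K := Qb) (F := modularFunctionFieldBar N))
    {f : modularFunctionFieldBar N} (hf : f ≠ 0)
    (hD : ∀ w : Place Qb (modularFunctionFieldBar N),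
      (m : ℤ) * (D : Divisor Qb (modularFunctionFieldBar N)) w = w.ord f) :
    alphaPushTo M p N h (Pic0.mk D) = 0 ↔
      ∃ g : modularFunctionFieldBar M, g ≠ 0 ∧ normAlong (alphaTo Qb M p N h) f = g ^ m :=
  pushPic0_mk_eq_zero_iff _ _ _ _ (constOfOrdZero_bar M) hm D hf hD

/-- **Kummer form of `ker β_*`** (any renamed top level). -/
theorem betaPushTo_mk_eq_zero_iff (N : ℕ) [NeZero N] (h : M * p = N) {m : ℕ} (hm : m ≠ 0)
    (D : Divisor.degZero (K := Qb) (F := modularFunctionFieldBar N))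
    {f : modularFunctionFieldBar N} (hf : f ≠ 0)
    (hD : ∀ w : Place Qb (modularFunctionFieldBar N),
      (m : ℤ) * (D : Divisor Qb (modularFunctionFieldBar N)) w = w.ord f) :
    betaPushTo M p N h (Pic0.mk D) = 0 ↔
      ∃ g : modularFunctionFieldBar M, g ≠ 0 ∧ normAlong (betaTo Qb M p N h) f = g ^ m :=
  pushPic0_mk_eq_zero_iff _ _ _ _ (constOfOrdZero_bar M) hm D hf hD

end Modular

section Wall

local notation "Qb" => AlgebraicClosure ℚ

variable (p M' : ℕ) [NeZero M'] [NeZero p] [NeZero (p * M')]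

theorem alphaL_eq_alphaPushTo (x : JZero (p * M')) :
    alphaL p M' x = alphaPushTo M' p (p * M') (Nat.mul_comm M' p) x := by
  rw [alphaPushTo_eq]
  rfl

theorem betaL_eq_betaPushTo (x : JZero (p * M')) :
    betaL p M' x = betaPushTo M' p (p * M') (Nat.mul_comm M' p) x := by
  rw [betaPushTo_eq]
  rfl

/-- **Kummer form of `ker α_*`, wall convention**: for `x = [D]`, `m D = div f`:
`α_* x = 0 ↔ Nm_α f` is an `m`-th power in `F_{M'}`. -/
theorem alphaL_mk_eq_zero_iff {m : ℕ} (hm : m ≠ 0)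
    (D : Divisor.degZero (K := Qb) (F := modularFunctionFieldBar (p * M')))
    {f : modularFunctionFieldBar (p * M')} (hf : f ≠ 0)
    (hD : ∀ w : Place Qb (modularFunctionFieldBar (p * M')),
      (m : ℤ) * (D : Divisor Qb (modularFunctionFieldBar (p * M'))) w = w.ord f) :
    alphaL p M' (Pic0.mk D) = 0 ↔
      ∃ g : modularFunctionFieldBar M', g ≠ 0 ∧
        normAlong (alphaTo Qb M' p (p * M') (Nat.mul_comm M' p)) f = g ^ m := by
  rw [alphaL_eq_alphaPushTo]
  exact alphaPushTo_mk_eq_zero_iff M' p (p * M') _ hm D hf hD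

/-- **Kummer form of `ker β_*`, wall convention.** -/
theorem betaL_mk_eq_zero_iff {m : ℕ} (hm : m ≠ 0)
    (D : Divisor.degZero (K := Qb) (F := modularFunctionFieldBar (p * M')))
    {f : modularFunctionFieldBar (p * M')} (hf : f ≠ 0)
    (hD : ∀ w : Place Qb (modularFunctionFieldBar (p * M')),
      (m : ℤ) * (D : Divisor Qb (modularFunctionFieldBar (p * M'))) w = w.ord f) :
    betaL p M' (Pic0.mk D) = 0 ↔
      ∃ g : modularFunctionFieldBar M', g ≠ 0 ∧
        normAlong (betaTo Qb M' p (p * M') (Nat.mul_comm M' p)) f = g ^ m := by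
  rw [betaL_eq_betaPushTo]
  exact betaPushTo_mk_eq_zero_iff M' p (p * M') _ hm D hf hD

/-- **The new part of `J₀(pM')[m]` in Kummer form**: every `x` with `m x = 0`,
`α_* x = β_* x = 0` is the class of a divisor `D` with `m D = div f`, where both norms of `f` to
level `M'` are `m`-th powers. -/
theorem exists_kummer_of_new {m : ℕ} (hm : m ≠ 0) (x : JZero (p * M')) (hx : m • x = 0)
    (hα : alphaL p M' x = 0) (hβ : betaL p M' x = 0) :
    ∃ (D : Divisor.degZero (K := Qb) (F := modularFunctionFieldBar (p * M')))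
      (f : modularFunctionFieldBar (p * M')) (g₁ g₂ : modularFunctionFieldBar M'),
      x = Pic0.mk D ∧ f ≠ 0 ∧ g₁ ≠ 0 ∧ g₂ ≠ 0 ∧
      (∀ w : Place Qb (modularFunctionFieldBar (p * M')),
        (m : ℤ) * (D : Divisor Qb (modularFunctionFieldBar (p * M'))) w = w.ord f) ∧
      normAlong (alphaTo Qb M' p (p * M') (Nat.mul_comm M' p)) f = g₁ ^ m ∧
      normAlong (betaTo Qb M' p (p * M') (Nat.mul_comm M' p)) f = g₂ ^ m := by
  obtain ⟨D, f, rfl, hf, hD⟩ := exists_kummer_of_nsmul_eq_zero x hx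
  obtain ⟨g₁, hg₁, h₁⟩ := (alphaL_mk_eq_zero_iff p M' hm D hf hD).1 hα
  obtain ⟨g₂, hg₂, h₂⟩ := (betaL_mk_eq_zero_iff p M' hm D hf hD).1 hβ
  exact ⟨D, f, g₁, g₂, rfl, hf, hg₁, hg₂, hD, h₁, h₂⟩

end Wall

end Fermat.Agent.Ribet.H801

end
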