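/-
RIBET / WALL-q, W-AL (helper801), part 1: the Atkin–Lehner swap `w_p` of the function field
`F_{Mp} = ℚ̄(X₀(Mp))` (`p ∤ M` prime) as a `ℚ̄`-algebra automorphism.

* `ringHom_ext_alpha_beta` : a ring homomorphism out of `F_{Mp}` is determined by its values on
                             `α F_M` and `β F_M`  (`α, β = heckeAlphaBar, heckeBetaBar`);
* `swapAL M p hp hpM : F_{Mp} ≃ₐ[ℚ̄] F_{Mp}` with `swapAL_alpha : w (α a) = β a`,
  `swapAL_beta : w (β a) = α a`, `swapAL_swapAL : w (w x) = x`, `swapAL_unique`;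
* `swapAL_galois` : `w_p` commutes with the arithmetic Galois action
                    (`SemilinearAut.IntertwinesAlong`).
-/
import Mathlib
import Fermat.Agent.S37.H88.ALSwap
import Fermat.Agent.A2.Mod.H751.Fricke
import Fermat.Agent.S29.H801.M1Modular
import Fermat.Agent.S29.H571.HeckeGalois

set_option autoImplicit false
set_option linter.style.haveILetI false
set_option linter.unusedSectionVars false
set_option synthInstance.maxHeartbeats 400000
set_option maxHeartbeats 1000000

noncomputable section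

namespace Fermat.Agent.Ribet.H801

open AlgebraicCurve ModularCurve Fermat.Agent.S29.H801 Fermat.Agent.S24

section Gen

variable (M p : ℕ) [NeZero M] [NeZero p]

/-- underlying series of the generator `j_d` -/
theorem coe_jK_eq_gd (N d : ℕ) [NeZero d] (hd : d ∣ N) :
    ((Fermat.Agent.A2.Mod.H751.jK Kbar N d hd : FF N) : LaurentSeries Kbar) =
      Fermat.Agent.S37.H88.gd Kbar d := by
  show coeffEmb Kbar (qExpand ℚ d jq) = qExpand Kbar d (jqModC Kbar)
  have h3 : coeffMap (algebraMap ℚ Kbar) jq = jqModC Kbar := by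
    rw [← jqModC_rat]
    exact coeffMap_jqModC (algebraMap ℚ Kbar)
  rw [coeffEmb, ModularCurve.coeffMap_qExpand, h3]

/-- every generator of `F_{Mp}` is an `α`-image or a `β`-image of an element of `F_M`. -/
theorem jK_eq_alpha_or_beta (hp : p.Prime) (d : ℕ) [NeZero d] (hd : d ∣ M * p) :
    ∃ a : FF M, heckeAlphaBar Kbar M p a = Fermat.Agent.A2.Mod.H751.jK Kbar (M * p) d hd ∨
      heckeBetaBar Kbar M p a = Fermat.Agent.A2.Mod.H751.jK Kbar (M * p) d hd := by
  obtain ⟨a, ha | ha⟩ :=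
    Fermat.Agent.S37.H88.gd_eq_alpha_or_beta (L := Kbar) (N := M) (ℓ := p) hp hd
  · exact ⟨a, Or.inl (Subtype.ext (ha.trans (coe_jK_eq_gd (M * p) d hd).symm))⟩
  · exact ⟨a, Or.inr (Subtype.ext (ha.trans (coe_jK_eq_gd (M * p) d hd).symm))⟩

variable {M p}

/-- A ring homomorphism out of `F_{Mp}` is determined by its values on `α F_M` and `β F_M`. -/
theorem ringHom_ext_alpha_beta (hp : p.Prime) {T : Type*} [DivisionRing T]
    (w w' : FF (M * p) →+* T)
    (hα : ∀ a : FF M, w (heckeAlphaBar Kbar M p a) = w' (heckeAlphaBar Kbar M p a))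
    (hβ : ∀ a : FF M, w (heckeBetaBar Kbar M p a) = w' (heckeBetaBar Kbar M p a)) :
    ∀ x, w x = w' x := by
  refine Fermat.Agent.A2.Mod.H751.ringHom_ext_FE (K := Kbar) (M * p) w w' ?_ ?_
  · intro e
    have h1 : algebraMap Kbar (FF (M * p)) e = heckeAlphaBar Kbar M p (algebraMap Kbar _ e) :=
      (AlgHom.commutes _ e).symm
    rw [h1, hα]
  · intro d _ hd
    obtain ⟨a, ha | ha⟩ := jK_eq_alpha_or_beta M p hp d hd
    · rw [← ha, hα]
    · rw [← ha, hβ]

end Gen

section Swap

variable (M p : ℕ) [NeZero M] [NeZero p]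

/-- The Atkin–Lehner swap as a ring endomorphism (chosen). -/
def swapRingHom (hp : p.Prime) (hpM : ¬ p ∣ M) : FF (M * p) →+* FF (M * p) :=
  Classical.choose (Fermat.Agent.S37.H88.exists_swap_bar (N := M) (ℓ := p) hp hpM)

theorem swapRingHom_alpha (hp : p.Prime) (hpM : ¬ p ∣ M) (a : FF M) :
    swapRingHom M p hp hpM (heckeAlphaBar Kbar M p a) = heckeBetaBar Kbar M p a :=
  (Classical.choose_spec (Fermat.Agent.S37.H88.exists_swap_bar (N := M) (ℓ := p) hp hpM)).1 a

theorem swapRingHom_beta (hp : p.Prime) (hpM : ¬ p ∣ M) (a : FF M) :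
    swapRingHom M p hp hpM (heckeBetaBar Kbar M p a) = heckeAlphaBar Kbar M p a :=
  (Classical.choose_spec (Fermat.Agent.S37.H88.exists_swap_bar (N := M) (ℓ := p) hp hpM)).2 a

variable {M p}

/-- **Uniqueness of the swap.** -/
theorem swapRingHom_unique (hp : p.Prime) (hpM : ¬ p ∣ M) (w : FF (M * p) →+* FF (M * p))
    (hα : ∀ a : FF M, w (heckeAlphaBar Kbar M p a) = heckeBetaBar Kbar M p a)
    (hβ : ∀ a : FF M, w (heckeBetaBar Kbar M p a) = heckeAlphaBar Kbar M p a) :
    ∀ x, w x = swapRingHom M p hp hpM x :=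
  ringHom_ext_alpha_beta hp w (swapRingHom M p hp hpM)
    (fun a => by rw [hα, swapRingHom_alpha]) (fun a => by rw [hβ, swapRingHom_beta])

/-- **The swap is an involution.** -/
theorem swapRingHom_swapRingHom (hp : p.Prime) (hpM : ¬ p ∣ M) (x : FF (M * p)) :
    swapRingHom M p hp hpM (swapRingHom M p hp hpM x) = x :=
  ringHom_ext_alpha_beta hp ((swapRingHom M p hp hpM).comp (swapRingHom M p hp hpM))
    (RingHom.id _)
    (fun a => by
      show swapRingHom M p hp hpM (swapRingHom M p hp hpM _) = _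
      rw [swapRingHom_alpha, swapRingHom_beta]; rfl)
    (fun a => by
      show swapRingHom M p hp hpM (swapRingHom M p hp hpM _) = _
      rw [swapRingHom_beta, swapRingHom_alpha]; rfl) x

theorem swapRingHom_algebraMap (hp : p.Prime) (hpM : ¬ p ∣ M) (e : Kbar) :
    swapRingHom M p hp hpM (algebraMap Kbar (FF (M * p)) e) = algebraMap Kbar (FF (M * p)) e := by
  have h1 : algebraMap Kbar (FF (M * p)) e = heckeAlphaBar Kbar M p (algebraMap Kbar _ e) :=
    (AlgHom.commutes _ e).symm
  have h2 : algebraMap Kbar (FF (M * p)) e = heckeBetaBar Kbar M p (algebraMap Kbar _ e) :=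
    (AlgHom.commutes _ e).symm
  rw [h1, swapRingHom_alpha, ← h2, ← h1]

variable (M p)

/-- **The Atkin–Lehner swap `w_p`** of `F_{Mp}`, as a `ℚ̄`-algebra automorphism. -/
def swapAL (hp : p.Prime) (hpM : ¬ p ∣ M) : FF (M * p) ≃ₐ[Kbar] FF (M * p) where
  toFun := swapRingHom M p hp hpM
  invFun := swapRingHom M p hp hpM
  left_inv := swapRingHom_swapRingHom hp hpM
  right_inv := swapRingHom_swapRingHom hp hpM
  map_mul' := map_mul _
  map_add' := map_add _
  commutes' := swapRingHom_algebraMap hp hpM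

variable {M p}

@[simp] theorem swapAL_alpha (hp : p.Prime) (hpM : ¬ p ∣ M) (a : FF M) :
    swapAL M p hp hpM (heckeAlphaBar Kbar M p a) = heckeBetaBar Kbar M p a :=
  swapRingHom_alpha M p hp hpM a

@[simp] theorem swapAL_beta (hp : p.Prime) (hpM : ¬ p ∣ M) (a : FF M) :
    swapAL M p hp hpM (heckeBetaBar Kbar M p a) = heckeAlphaBar Kbar M p a :=
  swapRingHom_beta M p hp hpM a

@[simp] theorem swapAL_swapAL (hp : p.Prime) (hpM : ¬ p ∣ M) (x : FF (M * p)) :
    swapAL M p hp hpM (swapAL M p hp hpM x) = x :=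
  swapRingHom_swapRingHom hp hpM x

theorem swapAL_symm (hp : p.Prime) (hpM : ¬ p ∣ M) :
    (swapAL M p hp hpM).symm = swapAL M p hp hpM := rfl

theorem swapAL_unique (hp : p.Prime) (hpM : ¬ p ∣ M) (w : FF (M * p) →+* FF (M * p))
    (hα : ∀ a : FF M, w (heckeAlphaBar Kbar M p a) = heckeBetaBar Kbar M p a)
    (hβ : ∀ a : FF M, w (heckeBetaBar Kbar M p a) = heckeAlphaBar Kbar M p a)
    (x : FF (M * p)) : w x = swapAL M p hp hpM x :=
  swapRingHom_unique hp hpM w hα hβ x

/-- `w_p ∘ α = β` as algebra homomorphisms. -/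
theorem swapAL_comp_alpha (hp : p.Prime) (hpM : ¬ p ∣ M) :
    ((swapAL M p hp hpM : FF (M * p) ≃ₐ[Kbar] FF (M * p)) : FF (M * p) →ₐ[Kbar] FF (M * p)).comp
      (heckeAlphaBar Kbar M p) = heckeBetaBar Kbar M p :=
  AlgHom.ext fun a => swapAL_alpha hp hpM a

/-- `w_p ∘ β = α` as algebra homomorphisms. -/
theorem swapAL_comp_beta (hp : p.Prime) (hpM : ¬ p ∣ M) :
    ((swapAL M p hp hpM : FF (M * p) ≃ₐ[Kbar] FF (M * p)) : FF (M * p) →ₐ[Kbar] FF (M * p)).comp
      (heckeBetaBar Kbar M p) = heckeAlphaBar Kbar M p :=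
  AlgHom.ext fun a => swapAL_beta hp hpM a

/-- **`w_p` commutes with the arithmetic Galois action.** -/
theorem swapAL_galois (hp : p.Prime) (hpM : ¬ p ∣ M) (σ : Kbar ≃ₐ[ℚ] Kbar) (x : FF (M * p)) :
    arithmeticGalois (modularFunctionFieldFull (M * p)) σ • swapAL M p hp hpM x =
      swapAL M p hp hpM (arithmeticGalois (modularFunctionFieldFull (M * p)) σ • x) := by
  set g := arithmeticGalois (L := Kbar) (modularFunctionFieldFull (M * p)) σ with hg
  set g₀ := arithmeticGalois (L := Kbar) (modularFunctionFieldFull M) σ with hg₀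
  have hα : ∀ a : FF M, g • heckeAlphaBar Kbar M p a = heckeAlphaBar Kbar M p (g₀ • a) :=
    Fermat.Agent.S29.H571.intertwines_heckeAlphaBar M p σ
  have hβ : ∀ a : FF M, g • heckeBetaBar Kbar M p a = heckeBetaBar Kbar M p (g₀ • a) :=
    Fermat.Agent.S29.H571.intertwines_heckeBetaBar M p σ
  -- the conjugate `g⁻¹ ∘ w ∘ g` is again a swap
  let w' : FF (M * p) →+* FF (M * p) :=
    ((SemilinearAut.toRingAut g).symm : FF (M * p) →+* FF (M * p)).comp
      ((swapRingHom M p hp hpM).comp ((SemilinearAut.toRingAut g : FF (M * p) ≃+* FF (M * p)) :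
        FF (M * p) →+* FF (M * p)))
  have hw' : ∀ y, w' y = g⁻¹ • swapAL M p hp hpM (g • y) := fun y => rfl
  have key := swapAL_unique hp hpM w'
    (fun a => by
      rw [hw', hα, swapAL_alpha, ← hβ, inv_smul_smul])
    (fun a => by
      rw [hw', hβ, swapAL_beta, ← hα, inv_smul_smul])
  have h := key x
  rw [hw'] at h
  rw [← h, smul_inv_smul]

/-- `w_p` intertwines the arithmetic Galois action with itself. -/
theorem intertwines_swapAL (hp : p.Prime) (hpM : ¬ p ∣ M) (σ : Kbar ≃ₐ[ℚ] Kbar) :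
    SemilinearAut.IntertwinesAlong
      (((swapAL M p hp hpM : FF (M * p) ≃ₐ[Kbar] FF (M * p)) :
        FF (M * p) →ₐ[Kbar] FF (M * p)) : FF (M * p) →+* FF (M * p))
      (arithmeticGalois (modularFunctionFieldFull (M * p)) σ)
      (arithmeticGalois (modularFunctionFieldFull (M * p)) σ) :=
  fun x => swapAL_galois hp hpM σ x

end Swap

end Fermat.Agent.Ribet.H801

end
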