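/-
RIBET / WALL-q, W-AL (helper801), part 2: the Atkin–Lehner involution on `J₀(Mp)(ℚ̄)`.

Generic (Prelude language):
* `inertiaDegAlong_eq_one_of_surjective`, `restrictAlong_id`, `pushforwardAlong_id`;
* `pushPic0_id`, `pushPic0_comp`, `pushPic0_congr` : functoriality of `pushPic0`;
* `normCompat_of_bijective` : norm compatibility of a square whose horizontal maps are bijective.

Modular:
* `wPush M p hp hpM : J₀(Mp) →+ J₀(Mp)`, push-forward along `swapAL` (= `w_p`);
* `wPush_wPush` (involution), `wPush_smul` (Galois-equivariance),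
  `alphaPush_wPush : α_* ∘ w = β_*`, `betaPush_wPush : β_* ∘ w = α_*`,
  `wPush_heckeOperatorBar : w ∘ T_ℓ = T_ℓ ∘ w` for primes `ℓ ∤ Mp`;
* `wPush_mk_of_kummer` : Kummer form (`div f = m·D ⟹ div (w f) = m·(w_* D)`).
-/
import Mathlib
import Fermat.Agent.Ribet.H801.ALSwap
import Fermat.Agent.Ribet.H801.DegKummer

set_option autoImplicit false
set_option linter.style.haveILetI false
set_option linter.unusedSectionVars false
set_option synthInstance.maxHeartbeats 400000
set_option maxHeartbeats 1000000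

noncomputable section

namespace Fermat.Agent.Ribet.H801

open AlgebraicCurve ModularCurve Fermat.Agent.S37.H818 Fermat.Agent.S29.H801 Fermat.Agent.S24
open Fermat.Agent.Lib.HI

/-! ## Generic functoriality of `pushPic0` -/

section Generic

variable {K F F₁ G : Type*} [Field K] [Field F] [Field F₁] [Field G]
  [Algebra K F] [Algebra K F₁] [Algebra K G]

/-- The inertia degree along a surjective map is `1`. -/
theorem inertiaDegAlong_eq_one_of_surjective (φ : F →ₐ[K] F₁) (hφ : φ.toRingHom.IsIntegral)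
    (hs : Function.Surjective φ) (w : Place K F₁) : w.inertiaDegAlong φ hφ = 1 := by
  letI := algebraAlong φ
  haveI := isScalarTower_along φ
  haveI := isIntegral_along φ hφ
  show Module.finrank (w.restrict F).ResidueField w.ResidueField = 1
  rw [finrank_eq_one_iff_of_nonzero' (1 : w.ResidueField) one_ne_zero]
  intro x
  obtain ⟨a, rfl⟩ := IsLocalRing.residue_surjective x
  obtain ⟨b, hb⟩ := hs (a : F₁)
  have hbm : b ∈ (w.restrict F).toValuationSubring := by
    rw [Place.mem_restrict_iff]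
    show φ b ∈ w.toValuationSubring
    rw [hb]
    exact a.2
  refine ⟨IsLocalRing.residue _ ⟨b, hbm⟩, ?_⟩
  rw [Algebra.smul_def, mul_one, Place.algebraMap_residueField_eq,
    Place.restrictResidueMap_residue]
  refine congrArg _ (Subtype.ext ?_)
  exact hb

theorem restrictAlong_id (h : (AlgHom.id K F).toRingHom.IsIntegral) (w : Place K F) :
    w.restrictAlong (AlgHom.id K F) h = w := by
  apply Place.ext
  ext x
  rfl

theorem pushforwardAlong_id (h : (AlgHom.id K F).toRingHom.IsIntegral) (D : Divisor K F) :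
    Divisor.pushforwardAlong (AlgHom.id K F) h D = D := by
  induction D using Finsupp.induction with
  | zero => simp
  | single_add W n D _ _ ih =>
    rw [map_add, ih, Divisor.pushforwardAlong_single, restrictAlong_id,
      inertiaDegAlong_eq_one_of_surjective (AlgHom.id K F) h (fun x => ⟨x, rfl⟩)]
    simp

theorem pushPic0_id (h : (AlgHom.id K F).toRingHom.IsIntegral)
    (hfin : FiniteAlong K (AlgHom.id K F)) (hN : NormFormulaAlong K (AlgHom.id K F) hfin)
    (x : Pic0 K F) : pushPic0 (AlgHom.id K F) h hfin hN x = x := by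
  obtain ⟨D, rfl⟩ := Pic0.mk_surjective x
  rw [pushPic0_mk]
  refine congrArg Pic0.mk (Subtype.ext ?_)
  rw [coe_pushDegZero]
  exact pushforwardAlong_id h _

theorem pushPic0_congr {φ φ' : F →ₐ[K] F₁} (h : φ = φ')
    (hφ : φ.toRingHom.IsIntegral) (hfin : FiniteAlong K φ) (hN : NormFormulaAlong K φ hfin)
    (hφ' : φ'.toRingHom.IsIntegral) (hfin' : FiniteAlong K φ')
    (hN' : NormFormulaAlong K φ' hfin') (x : Pic0 K F₁) :
    pushPic0 φ hφ hfin hN x = pushPic0 φ' hφ' hfin' hN' x := by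
  subst h
  rfl

theorem pushPic0_comp (φ : F →ₐ[K] F₁) (ψ : F₁ →ₐ[K] G)
    (hφ : φ.toRingHom.IsIntegral) (hfinφ : FiniteAlong K φ) (hNφ : NormFormulaAlong K φ hfinφ)
    (hψ : ψ.toRingHom.IsIntegral) (hfinψ : FiniteAlong K ψ) (hNψ : NormFormulaAlong K ψ hfinψ)
    (hψφ : (ψ.comp φ).toRingHom.IsIntegral) (hfin : FiniteAlong K (ψ.comp φ))
    (hN : NormFormulaAlong K (ψ.comp φ) hfin) (x : Pic0 K G) :
    pushPic0 (ψ.comp φ) hψφ hfin hN x = pushPic0 φ hφ hfinφ hNφ (pushPic0 ψ hψ hfinψ hNψ x) := by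
  obtain ⟨D, rfl⟩ := Pic0.mk_surjective x
  rw [pushPic0_mk, pushPic0_mk, pushPic0_mk]
  refine congrArg Pic0.mk (Subtype.ext ?_)
  rw [coe_pushDegZero, coe_pushDegZero, coe_pushDegZero]
  exact pushforwardAlong_comp φ ψ hφ hψ hψφ _

/-- With `F₁` a one-dimensional `F`-space along a bijective `a`, the norm is `a⁻¹`. -/
theorem norm_along_of_bijective (a : F →ₐ[K] F₁) (hb : Function.Bijective a) (y : F) :
    (letI := algebraAlong a; Algebra.norm F (a y)) = y := by
  letI := algebraAlong a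
  have h1 : Module.finrank F F₁ = 1 := by
    rw [finrank_eq_one_iff_of_nonzero' (1 : F₁) one_ne_zero]
    intro x
    obtain ⟨b, rfl⟩ := hb.2 x
    exact ⟨b, by rw [Algebra.smul_def, mul_one]; rfl⟩
  have h2 := Algebra.norm_algebraMap (S := F₁) y
  rw [h1, pow_one] at h2
  exact h2

/-- Norm compatibility for a commutative square with bijective horizontal maps. -/
theorem normCompat_of_bijective {G₁ : Type*} [Field G₁] [Algebra K G₁]
    (a : F →ₐ[K] F₁) (i : F →ₐ[K] G) (a' : G →ₐ[K] G₁) (i₁ : F₁ →ₐ[K] G₁)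
    (ha : Function.Bijective a) (ha' : Function.Bijective a')
    (hsq : i₁.comp a = a'.comp i) : NormCompat a i a' i₁ := by
  intro f
  obtain ⟨y, rfl⟩ := ha.2 f
  have h1 : i₁ (a y) = a' (i y) := AlgHom.congr_fun hsq y
  rw [h1, norm_along_of_bijective a' ha', norm_along_of_bijective a ha]

end Generic

end Fermat.Agent.Ribet.H801

end

noncomputable section

namespace Fermat.Agent.Ribet.H801

open AlgebraicCurve ModularCurve Fermat.Agent.S37.H818 Fermat.Agent.S29.H801 Fermat.Agent.S24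
open Fermat.Agent.Lib.HI

/-! ## The Atkin–Lehner involution on `J₀(Mp)` -/

section Modular

variable (M p : ℕ) [NeZero M] [NeZero p]

/-- `w_p` as an algebra endomorphism of `F_{Mp}`. -/
def swapHom (hp : p.Prime) (hpM : ¬ p ∣ M) : FF (M * p) →ₐ[Kbar] FF (M * p) :=
  ((swapAL M p hp hpM : FF (M * p) ≃ₐ[Kbar] FF (M * p)) : FF (M * p) →ₐ[Kbar] FF (M * p))

variable {M p}

@[simp] theorem swapHom_apply (hp : p.Prime) (hpM : ¬ p ∣ M) (x : FF (M * p)) :
    swapHom M p hp hpM x = swapAL M p hp hpM x := rfl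

theorem swapHom_bijective (hp : p.Prime) (hpM : ¬ p ∣ M) :
    Function.Bijective (swapHom M p hp hpM) :=
  (swapAL M p hp hpM).bijective

theorem swapHom_comp_swapHom (hp : p.Prime) (hpM : ¬ p ∣ M) :
    (swapHom M p hp hpM).comp (swapHom M p hp hpM) = AlgHom.id Kbar (FF (M * p)) :=
  AlgHom.ext fun x => swapAL_swapAL hp hpM x

theorem swapHom_comp_alpha (hp : p.Prime) (hpM : ¬ p ∣ M) :
    (swapHom M p hp hpM).comp (heckeAlphaBar Kbar M p) = heckeBetaBar Kbar M p :=
  swapAL_comp_alpha hp hpM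

theorem swapHom_comp_beta (hp : p.Prime) (hpM : ¬ p ∣ M) :
    (swapHom M p hp hpM).comp (heckeBetaBar Kbar M p) = heckeAlphaBar Kbar M p :=
  swapAL_comp_beta hp hpM

theorem swapHom_jF (hp : p.Prime) (hpM : ¬ p ∣ M) :
    swapHom M p hp hpM (jF (M * p)) = heckeBetaBar Kbar M p (jF M) := by
  rw [← H864.heckeAlphaBar_jF M p]
  exact swapAL_alpha hp hpM (jF M)

theorem finiteDimensional_swapHom (hp : p.Prime) (hpM : ¬ p ∣ M) :
    FiniteDimensional ↥(IntermediateField.adjoin Kbar {swapHom M p hp hpM (jF (M * p))})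
      (FF (M * p)) := by
  rw [swapHom_jF]
  exact H864.finiteDimensional_beta M p

theorem swapHom_integral (hp : p.Prime) (hpM : ¬ p ∣ M) :
    (swapHom M p hp hpM).toRingHom.IsIntegral := by
  haveI := finiteDimensional_swapHom hp hpM
  exact H864.isIntegral_along_of_finite (swapHom M p hp hpM) (jF (M * p))

theorem swapHom_finite (hp : p.Prime) (hpM : ¬ p ∣ M) :
    FiniteAlong Kbar (swapHom M p hp hpM) := by
  haveI := finiteDimensional_swapHom hp hpM
  exact H864.finiteAlong (swapHom M p hp hpM) (jF (M * p))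

theorem swapHom_normFormula (hp : p.Prime) (hpM : ¬ p ∣ M)
    (hfin : FiniteAlong Kbar (swapHom M p hp hpM)) :
    NormFormulaAlong Kbar (swapHom M p hp hpM) hfin := by
  haveI := H864.finiteDimensional_jF (M * p)
  haveI := finiteDimensional_swapHom hp hpM
  exact H864.normFormulaAlong (swapHom M p hp hpM) (jF (M * p))
    (H864.transcendental_jF (M * p)) hfin

variable (M p)

/-- **The Atkin–Lehner involution `w_p` on `J₀(Mp)(ℚ̄)`** (push-forward along `swapAL`). -/
def wPush (hp : p.Prime) (hpM : ¬ p ∣ M) : JZero (M * p) →+ JZero (M * p) :=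
  pushPic0 (swapHom M p hp hpM) (swapHom_integral hp hpM) (swapHom_finite hp hpM)
    (swapHom_normFormula hp hpM _)

variable {M p}

theorem wPush_mk (hp : p.Prime) (hpM : ¬ p ∣ M)
    (D : Divisor.degZero (K := AlgebraicClosure ℚ)
      (F := laurentBaseChange (AlgebraicClosure ℚ) (modularFunctionFieldFull (M * p)))) :
    wPush M p hp hpM (Pic0.mk D) =
      Pic0.mk (pushDegZero (swapHom M p hp hpM) (swapHom_integral hp hpM) D) :=
  rfl

/-- **`w_p` is an involution.** -/
theorem wPush_wPush (hp : p.Prime) (hpM : ¬ p ∣ M) (x : JZero (M * p)) :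
    wPush M p hp hpM (wPush M p hp hpM x) = x := by
  have hid : (AlgHom.id Kbar (FF (M * p))).toRingHom.IsIntegral := by
    rw [← swapHom_comp_swapHom hp hpM]
    exact RingHom.IsIntegral.trans _ _ (swapHom_integral hp hpM) (swapHom_integral hp hpM)
  have hc : ((swapHom M p hp hpM).comp (swapHom M p hp hpM)).toRingHom.IsIntegral :=
    RingHom.IsIntegral.trans _ _ (swapHom_integral hp hpM) (swapHom_integral hp hpM)
  have hfd : FiniteDimensional
      ↥(IntermediateField.adjoin Kbar {(AlgHom.id Kbar (FF (M * p))) (jF (M * p))})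
      (FF (M * p)) := H864.finiteDimensional_jF (M * p)
  have hfinid : FiniteAlong Kbar (AlgHom.id Kbar (FF (M * p))) := by
    exact H864.finiteAlong (AlgHom.id Kbar (FF (M * p))) (jF (M * p))
  have hNid : NormFormulaAlong Kbar (AlgHom.id Kbar (FF (M * p))) hfinid := by
    haveI := H864.finiteDimensional_jF (M * p)
    exact H864.normFormulaAlong (AlgHom.id Kbar (FF (M * p))) (jF (M * p))
      (H864.transcendental_jF (M * p)) hfinid
  have hfinc : FiniteAlong Kbar ((swapHom M p hp hpM).comp (swapHom M p hp hpM)) := by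
    rw [swapHom_comp_swapHom hp hpM]; exact hfinid
  have hNc : NormFormulaAlong Kbar ((swapHom M p hp hpM).comp (swapHom M p hp hpM)) hfinc := by
    have key : ∀ (φ : FF (M * p) →ₐ[Kbar] FF (M * p)) (h : φ = AlgHom.id Kbar (FF (M * p)))
        (hf : FiniteAlong Kbar φ), NormFormulaAlong Kbar φ hf := by
      intro φ h hf
      subst h
      exact hNid
    exact key _ (swapHom_comp_swapHom hp hpM) hfinc
  show pushPic0 _ _ _ _ (pushPic0 _ _ _ _ x) = x
  rw [← pushPic0_comp (swapHom M p hp hpM) (swapHom M p hp hpM) (swapHom_integral hp hpM)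
    (swapHom_finite hp hpM) (swapHom_normFormula hp hpM _) (swapHom_integral hp hpM)
    (swapHom_finite hp hpM) (swapHom_normFormula hp hpM _) hc hfinc hNc x,
    pushPic0_congr (swapHom_comp_swapHom hp hpM) hc hfinc hNc hid hfinid hNid x]
  exact pushPic0_id hid hfinid hNid x

/-- **`α_* ∘ w_p = β_*`.** -/
theorem alphaPush_wPush (hp : p.Prime) (hpM : ¬ p ∣ M) (x : JZero (M * p)) :
    alphaPush M p (wPush M p hp hpM x) = betaPush M p x := by
  have hc : ((swapHom M p hp hpM).comp (heckeAlphaBar Kbar M p)).toRingHom.IsIntegral :=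
    RingHom.IsIntegral.trans _ _ (H864.heckeAlphaBarIntegral M p) (swapHom_integral hp hpM)
  have key : ∀ (φ : FF M →ₐ[Kbar] FF (M * p)) (h : φ = heckeBetaBar Kbar M p),
      ∃ (hf : FiniteAlong Kbar φ), NormFormulaAlong Kbar φ hf := by
    intro φ h
    subst h
    exact ⟨H864.finiteAlong_beta M p, H864.normFormulaAlong_beta M p _⟩
  obtain ⟨hfinc, hNc⟩ := key _ (swapHom_comp_alpha hp hpM)
  show pushPic0 _ _ _ _ (pushPic0 _ _ _ _ x) = pushPic0 _ _ _ _ x
  rw [← pushPic0_comp (heckeAlphaBar Kbar M p) (swapHom M p hp hpM)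
    (H864.heckeAlphaBarIntegral M p) (H864.finiteAlong_alpha M p)
    (H864.normFormulaAlong_alpha M p _) (swapHom_integral hp hpM)
    (swapHom_finite hp hpM) (swapHom_normFormula hp hpM _) hc hfinc hNc x]
  exact pushPic0_congr (swapHom_comp_alpha hp hpM) hc hfinc hNc _ _ _ x

/-- **`β_* ∘ w_p = α_*`.** -/
theorem betaPush_wPush (hp : p.Prime) (hpM : ¬ p ∣ M) (x : JZero (M * p)) :
    betaPush M p (wPush M p hp hpM x) = alphaPush M p x := by
  have hc : ((swapHom M p hp hpM).comp (heckeBetaBar Kbar M p)).toRingHom.IsIntegral :=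
    RingHom.IsIntegral.trans _ _ (H864.heckeBetaBarIntegral M p) (swapHom_integral hp hpM)
  have key : ∀ (φ : FF M →ₐ[Kbar] FF (M * p)) (h : φ = heckeAlphaBar Kbar M p),
      ∃ (hf : FiniteAlong Kbar φ), NormFormulaAlong Kbar φ hf := by
    intro φ h
    subst h
    exact ⟨H864.finiteAlong_alpha M p, H864.normFormulaAlong_alpha M p _⟩
  obtain ⟨hfinc, hNc⟩ := key _ (swapHom_comp_beta hp hpM)
  show pushPic0 _ _ _ _ (pushPic0 _ _ _ _ x) = pushPic0 _ _ _ _ x
  rw [← pushPic0_comp (heckeBetaBar Kbar M p) (swapHom M p hp hpM)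
    (H864.heckeBetaBarIntegral M p) (H864.finiteAlong_beta M p)
    (H864.normFormulaAlong_beta M p _) (swapHom_integral hp hpM)
    (swapHom_finite hp hpM) (swapHom_normFormula hp hpM _) hc hfinc hNc x]
  exact pushPic0_congr (swapHom_comp_beta hp hpM) hc hfinc hNc _ _ _ x

/-- **`w_p` is Galois-equivariant.** -/
theorem wPush_smul (hp : p.Prime) (hpM : ¬ p ∣ M)
    (σ : AlgebraicClosure ℚ ≃ₐ[ℚ] AlgebraicClosure ℚ) (x : JZero (M * p)) :
    wPush M p hp hpM (σ • x) = σ • wPush M p hp hpM x := by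
  rw [galois_smul_pic0_def, galois_smul_pic0_def]
  exact pushPic0_smul _ _ _ _ (intertwines_swapAL hp hpM σ) x

end Modular

end Fermat.Agent.Ribet.H801

end

noncomputable section

namespace Fermat.Agent.Ribet.H801

open AlgebraicCurve ModularCurve Fermat.Agent.S37.H818 Fermat.Agent.S29.H801 Fermat.Agent.S24
open Fermat.Agent.Lib.HI

/-! ## Hecke-equivariance of `w_p` -/

section Retarget

variable (M p N : ℕ) [NeZero M] [NeZero p] [NeZero N]

/-- `swapHom` with the level renamed along `M * p = N`. -/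
def swapTo (h : M * p = N) (hp : p.Prime) (hpM : ¬ p ∣ M) : FF N →ₐ[Kbar] FF N := by
  subst h
  exact swapHom M p hp hpM

variable {M p N}

theorem swapTo_alphaTo (h : M * p = N) (hp : p.Prime) (hpM : ¬ p ∣ M) (a : FF M) :
    swapTo M p N h hp hpM (alphaTo Kbar M p N h a) = betaTo Kbar M p N h a := by
  subst h
  exact swapAL_alpha hp hpM a

theorem swapTo_betaTo (h : M * p = N) (hp : p.Prime) (hpM : ¬ p ∣ M) (a : FF M) :
    swapTo M p N h hp hpM (betaTo Kbar M p N h a) = alphaTo Kbar M p N h a := by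
  subst h
  exact swapAL_beta hp hpM a

theorem swapTo_bijective (h : M * p = N) (hp : p.Prime) (hpM : ¬ p ∣ M) :
    Function.Bijective (swapTo M p N h hp hpM) := by
  subst h
  exact swapHom_bijective hp hpM

theorem swapTo_integral (h : M * p = N) (hp : p.Prime) (hpM : ¬ p ∣ M) :
    (swapTo M p N h hp hpM).toRingHom.IsIntegral := by
  subst h
  exact swapHom_integral hp hpM

theorem swapTo_finite (h : M * p = N) (hp : p.Prime) (hpM : ¬ p ∣ M) :
    FiniteAlong Kbar (swapTo M p N h hp hpM) := by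
  subst h
  exact swapHom_finite hp hpM

theorem swapTo_normFormula (h : M * p = N) (hp : p.Prime) (hpM : ¬ p ∣ M)
    (hfin : FiniteAlong Kbar (swapTo M p N h hp hpM)) :
    NormFormulaAlong Kbar (swapTo M p N h hp hpM) hfin := by
  subst h
  exact swapHom_normFormula hp hpM hfin

end Retarget

section Hecke

variable (M p ℓ : ℕ) [NeZero M] [NeZero p] [NeZero ℓ]

theorem not_dvd_mul_of_ne (hp : p.Prime) (hℓ : ℓ.Prime) (hne : ℓ ≠ p) (hpM : ¬ p ∣ M) :
    ¬ p ∣ M * ℓ := by
  intro h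
  rcases (Nat.Prime.dvd_mul hp).mp h with h1 | h1
  · exact hpM h1
  · exact hne ((Nat.prime_dvd_prime_iff_eq hp hℓ).mp h1).symm

/-- `β_ℓ ∘ w_p^{(Mp)} = w_p^{(Mℓp)} ∘ β_ℓ`. -/
theorem swap_sq_beta (hp : p.Prime) (hℓ : ℓ.Prime) (hne : ℓ ≠ p) (hpM : ¬ p ∣ M) :
    (heckeBetaBar Kbar (M * p) ℓ).comp (swapHom M p hp hpM) =
      (swapTo (M * ℓ) p (M * p * ℓ) (Nat.mul_right_comm M ℓ p) hp
        (not_dvd_mul_of_ne M p ℓ hp hℓ hne hpM)).comp (heckeBetaBar Kbar (M * p) ℓ) := by
  refine AlgHom.ext fun x => ?_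
  refine ringHom_ext_alpha_beta hp
    (((heckeBetaBar Kbar (M * p) ℓ).comp (swapHom M p hp hpM)).toRingHom)
    (((swapTo (M * ℓ) p (M * p * ℓ) (Nat.mul_right_comm M ℓ p) hp
        (not_dvd_mul_of_ne M p ℓ hp hℓ hne hpM)).comp (heckeBetaBar Kbar (M * p) ℓ)).toRingHom)
    ?_ ?_ x
  · intro a
    show heckeBetaBar Kbar (M * p) ℓ (swapAL M p hp hpM (heckeAlphaBar Kbar M p a)) =
      swapTo (M * ℓ) p (M * p * ℓ) _ hp _ (heckeBetaBar Kbar (M * p) ℓ (heckeAlphaBar Kbar M p a))
    have h1 := AlgHom.congr_fun (rel_BB (L := Kbar) M p ℓ) a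
    have h2 := AlgHom.congr_fun (rel_sq₂ (L := Kbar) M p ℓ) a
    simp only [AlgHom.comp_apply] at h1 h2
    rw [swapAL_alpha, h1, h2, swapTo_alphaTo]
  · intro a
    show heckeBetaBar Kbar (M * p) ℓ (swapAL M p hp hpM (heckeBetaBar Kbar M p a)) =
      swapTo (M * ℓ) p (M * p * ℓ) _ hp _ (heckeBetaBar Kbar (M * p) ℓ (heckeBetaBar Kbar M p a))
    have h1 := AlgHom.congr_fun (rel_BB (L := Kbar) M p ℓ) a
    have h2 := AlgHom.congr_fun (rel_sq₂ (L := Kbar) M p ℓ) a
    simp only [AlgHom.comp_apply] at h1 h2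
    rw [swapAL_beta, h1, h2, swapTo_betaTo]

/-- `α_ℓ ∘ w_p^{(Mp)} = w_p^{(Mℓp)} ∘ α_ℓ`. -/
theorem swap_sq_alpha (hp : p.Prime) (hℓ : ℓ.Prime) (hne : ℓ ≠ p) (hpM : ¬ p ∣ M) :
    (heckeAlphaBar Kbar (M * p) ℓ).comp (swapHom M p hp hpM) =
      (swapTo (M * ℓ) p (M * p * ℓ) (Nat.mul_right_comm M ℓ p) hp
        (not_dvd_mul_of_ne M p ℓ hp hℓ hne hpM)).comp (heckeAlphaBar Kbar (M * p) ℓ) := by
  refine AlgHom.ext fun x => ?_
  refine ringHom_ext_alpha_beta hp
    (((heckeAlphaBar Kbar (M * p) ℓ).comp (swapHom M p hp hpM)).toRingHom)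
    (((swapTo (M * ℓ) p (M * p * ℓ) (Nat.mul_right_comm M ℓ p) hp
        (not_dvd_mul_of_ne M p ℓ hp hℓ hne hpM)).comp (heckeAlphaBar Kbar (M * p) ℓ)).toRingHom)
    ?_ ?_ x
  · intro a
    show heckeAlphaBar Kbar (M * p) ℓ (swapAL M p hp hpM (heckeAlphaBar Kbar M p a)) =
      swapTo (M * ℓ) p (M * p * ℓ) _ hp _ (heckeAlphaBar Kbar (M * p) ℓ (heckeAlphaBar Kbar M p a))
    have h1 := AlgHom.congr_fun (rel_AA (L := Kbar) M p ℓ) a
    have h2 := AlgHom.congr_fun (rel_sq₁ (L := Kbar) M p ℓ) a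
    simp only [AlgHom.comp_apply] at h1 h2
    rw [swapAL_alpha, h1, ← h2, swapTo_alphaTo]
  · intro a
    show heckeAlphaBar Kbar (M * p) ℓ (swapAL M p hp hpM (heckeBetaBar Kbar M p a)) =
      swapTo (M * ℓ) p (M * p * ℓ) _ hp _ (heckeAlphaBar Kbar (M * p) ℓ (heckeBetaBar Kbar M p a))
    have h1 := AlgHom.congr_fun (rel_AA (L := Kbar) M p ℓ) a
    have h2 := AlgHom.congr_fun (rel_sq₁ (L := Kbar) M p ℓ) a
    simp only [AlgHom.comp_apply] at h1 h2
    rw [swapAL_beta, h1, ← h2, swapTo_betaTo]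

/-- **`w_p` is Hecke-equivariant** (operator form, any prime `ℓ ≠ p`). -/
theorem wPush_heckeOperatorAlong (hp : p.Prime) (hℓ : ℓ.Prime) (hne : ℓ ≠ p) (hpM : ¬ p ∣ M)
    (x : JZero (M * p)) :
    wPush M p hp hpM (heckeOperatorAlong (AlgebraicClosure ℚ) (M * p) ℓ x) =
      heckeOperatorAlong (AlgebraicClosure ℚ) (M * p) ℓ (wPush M p hp hpM x) := by
  haveI hP₁ : HasPrincipalDivisors (AlgebraicClosure ℚ)
      (laurentBaseChange (AlgebraicClosure ℚ) (modularFunctionFieldFull (M * p))) :=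
    H864.hasPrincipalDivisors_FF (M * p)
  haveI hP₃ : HasPrincipalDivisors (AlgebraicClosure ℚ)
      (laurentBaseChange (AlgebraicClosure ℚ) (modularFunctionFieldFull (M * p * ℓ))) :=
    H864.hasPrincipalDivisors_FF (M * p * ℓ)
  have hc : M * ℓ * p = M * p * ℓ := Nat.mul_right_comm M ℓ p
  have hpMℓ := not_dvd_mul_of_ne M p ℓ hp hℓ hne hpM
  rw [heckeOperatorAlong_eq (H864.heckeAlphaBarIntegral (M * p) ℓ)
      (H864.heckeBetaBarIntegral (M * p) ℓ) (H864.fundamentalIdentityAlong_beta (M * p) ℓ _)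
      (H864.finiteAlong_alpha (M * p) ℓ) (H864.normFormulaAlong_alpha (M * p) ℓ _)]
  exact pushPic0_correspondence
    (swapHom M p hp hpM)
    (heckeBetaBar (AlgebraicClosure ℚ) (M * p) ℓ) (heckeAlphaBar (AlgebraicClosure ℚ) (M * p) ℓ)
    (heckeBetaBar (AlgebraicClosure ℚ) (M * p) ℓ) (heckeAlphaBar (AlgebraicClosure ℚ) (M * p) ℓ)
    (swapTo (M * ℓ) p (M * p * ℓ) hc hp hpMℓ)
    (swapHom_integral hp hpM) (H864.heckeBetaBarIntegral (M * p) ℓ)
    (H864.heckeAlphaBarIntegral (M * p) ℓ) (H864.heckeBetaBarIntegral (M * p) ℓ)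
    (H864.heckeAlphaBarIntegral (M * p) ℓ)
    (swapTo_integral hc hp hpMℓ)
    (swap_sq_beta M p ℓ hp hℓ hne hpM) (swap_sq_alpha M p ℓ hp hℓ hne hpM)
    (H864.fundamentalIdentityAlong_beta (M * p) ℓ _)
    (H864.fundamentalIdentityAlong_beta (M * p) ℓ _)
    (H864.finiteAlong_alpha (M * p) ℓ) (H864.normFormulaAlong_alpha (M * p) ℓ _)
    (H864.finiteAlong_alpha (M * p) ℓ) (H864.normFormulaAlong_alpha (M * p) ℓ _)
    (swapHom_finite hp hpM) (swapHom_normFormula hp hpM _)
    (swapTo_finite hc hp hpMℓ) (swapTo_normFormula hc hp hpMℓ _)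
    (normCompat_of_bijective _ _ _ _ (swapHom_bijective hp hpM) (swapTo_bijective hc hp hpMℓ)
      (swap_sq_beta M p ℓ hp hℓ hne hpM))
    (hasLocalGenerators_of_hasPrincipalDivisors _ _) x

end Hecke

section Bar

variable {M p : ℕ} [NeZero M] [NeZero p]

/-- **`w_p` commutes with `T_ℓ`** for every prime `ℓ ≠ p` (including `ℓ ∣ M`). -/
theorem wPush_heckeOperatorBar (hp : p.Prime) (hpM : ¬ p ∣ M) (ℓ : Nat.Primes)
    (hne : (ℓ : ℕ) ≠ p) (x : JZero (M * p)) :
    wPush M p hp hpM (heckeOperatorBar (M * p) ℓ x) =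
      heckeOperatorBar (M * p) ℓ (wPush M p hp hpM x) := by
  haveI : NeZero (ℓ : ℕ) := ⟨ℓ.2.ne_zero⟩
  rw [heckeOperatorBar_apply, heckeOperatorBar_apply]
  exact wPush_heckeOperatorAlong M p (ℓ : ℕ) hp ℓ.2 hne hpM x

end Bar

end Fermat.Agent.Ribet.H801

end
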