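/-
RIBET / WALL-q, W-AL (helper801), part 3: the Atkin–Lehner involution in the wall convention

    wL p M' hp hpM' : J₀(p M')(ℚ̄) ≃+ J₀(p M')(ℚ̄)        (`p ∤ M'` prime)

* `wL_wL`                 : `w ∘ w = id`;
* `wL_smul`               : `w (σ • x) = σ • w x`  (`σ ∈ Gal(ℚ̄/ℚ)`);
* `alphaL_wL`, `betaL_wL` : `α_* ∘ w = β_*`, `β_* ∘ w = α_*`  (`alphaL`, `betaL` of `H801.Deg`);
* `wL_heckeOperatorBar`   : `w ∘ T_ℓ = T_ℓ ∘ w` for every prime `ℓ ≠ p`;
* `wL_nsmul_eq_zero`, `alphaL_wL_eq_zero`, `betaL_wL_eq_zero`, `wL_new` : the new part of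
  `J₀(pM')[m]` is `w`-stable;
* `swapL p M' hp hpM' : F_{pM'} →ₐ[ℚ̄] F_{pM'}` (the swap at level `pM'`), `swapL_swapL`,
  `swapL_alphaTo`, `swapL_betaTo`, `swapL_galois`;
* `wL_mk_of_kummer`       : **Kummer form**: if `x = [D]`, `m D = div f`, then
  `w x = [D']` with `m D' = div (swapL f)`.
* `wL_sub_eigen`, `wL_add_eigen` : `w (x ∓ w x) = ∓ (x ∓ w x)`  (the `w`-symmetrisation).
-/
import Mathlib
import Fermat.Agent.Ribet.H801.ALPush

set_option autoImplicit false
set_option linter.style.haveILetI false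
set_option linter.unusedSectionVars false
set_option synthInstance.maxHeartbeats 400000
set_option maxHeartbeats 1000000

noncomputable section

namespace Fermat.Agent.Ribet.H801

open AlgebraicCurve ModularCurve Fermat.Agent.S37.H818 Fermat.Agent.S29.H801 Fermat.Agent.S24
open Fermat.Agent.Lib.HI Fermat.Agent.S29.H395

section To

variable (M p N : ℕ) [NeZero M] [NeZero p] [NeZero N]

/-- `w_p` on `J₀(N)`, `N = M p` (renamed level). -/
def wPushTo (h : M * p = N) (hp : p.Prime) (hpM : ¬ p ∣ M) : JZero N →+ JZero N :=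
  pushPic0 (swapTo M p N h hp hpM) (swapTo_integral h hp hpM) (swapTo_finite h hp hpM)
    (swapTo_normFormula h hp hpM _)

variable {M p N}

theorem wPushTo_eq (h : M * p = N) (hp : p.Prime) (hpM : ¬ p ∣ M) (x : JZero N) :
    wPushTo M p N h hp hpM x = jzeroCast h (wPush M p hp hpM (jzeroCast h.symm x)) := by
  subst h
  rfl

theorem swapTo_swapTo (h : M * p = N) (hp : p.Prime) (hpM : ¬ p ∣ M) (x : FF N) :
    swapTo M p N h hp hpM (swapTo M p N h hp hpM x) = x := by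
  subst h
  exact swapAL_swapAL hp hpM x

theorem swapTo_galois (h : M * p = N) (hp : p.Prime) (hpM : ¬ p ∣ M) (σ : Kbar ≃ₐ[ℚ] Kbar)
    (x : FF N) :
    arithmeticGalois (modularFunctionFieldFull N) σ • swapTo M p N h hp hpM x =
      swapTo M p N h hp hpM (arithmeticGalois (modularFunctionFieldFull N) σ • x) := by
  subst h
  exact swapAL_galois hp hpM σ x

/-- the norm along the swap is the swap -/
theorem normAlong_swapTo (h : M * p = N) (hp : p.Prime) (hpM : ¬ p ∣ M) (f : FF N) :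
    normAlong (swapTo M p N h hp hpM) f = swapTo M p N h hp hpM f := by
  have h1 := norm_along_of_bijective (swapTo M p N h hp hpM) (swapTo_bijective h hp hpM)
    (swapTo M p N h hp hpM f)
  rw [swapTo_swapTo] at h1
  exact h1

/-- **Kummer form of `w_p`** (renamed level). -/
theorem wPushTo_mk_of_kummer (h : M * p = N) (hp : p.Prime) (hpM : ¬ p ∣ M) {m : ℤ}
    (D : Divisor.degZero (K := Kbar) (F := FF N)) {f : FF N} (hf : f ≠ 0)
    (hD : ∀ w : Place Kbar (FF N), m * (D : Divisor Kbar (FF N)) w = w.ord f) :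
    ∃ D' : Divisor.degZero (K := Kbar) (F := FF N),
      wPushTo M p N h hp hpM (Pic0.mk D) = Pic0.mk D' ∧
      ∀ w : Place Kbar (FF N),
        m * (D' : Divisor Kbar (FF N)) w = w.ord (swapTo M p N h hp hpM f) := by
  refine ⟨pushDegZero (swapTo M p N h hp hpM) (swapTo_integral h hp hpM) D, rfl, fun w => ?_⟩
  rw [coe_pushDegZero, pushforwardAlong_kummer (swapTo M p N h hp hpM)
    (swapTo_integral h hp hpM) (swapTo_finite h hp hpM) (swapTo_normFormula h hp hpM _)
    (D : Divisor Kbar (FF N)) hf hD w, normAlong_swapTo]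

end To

section Wall

variable (p M' : ℕ) [NeZero M'] [NeZero p] [NeZero (p * M')]

/-- The swap `w_p` of the function field `F_{pM'}` (wall convention). -/
def swapL (hp : p.Prime) (hpM : ¬ p ∣ M') : FF (p * M') →ₐ[Kbar] FF (p * M') :=
  swapTo M' p (p * M') (Nat.mul_comm M' p) hp hpM

/-- **The Atkin–Lehner involution `w_p` on `J₀(pM')(ℚ̄)`** as a homomorphism. -/
def wLHom (hp : p.Prime) (hpM : ¬ p ∣ M') : JZero (p * M') →+ JZero (p * M') :=
  wPushTo M' p (p * M') (Nat.mul_comm M' p) hp hpM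

variable {p M'}

theorem swapL_swapL (hp : p.Prime) (hpM : ¬ p ∣ M') (x : FF (p * M')) :
    swapL p M' hp hpM (swapL p M' hp hpM x) = x :=
  swapTo_swapTo _ hp hpM x

theorem swapL_alphaTo (hp : p.Prime) (hpM : ¬ p ∣ M') (a : FF M') :
    swapL p M' hp hpM (alphaTo Kbar M' p (p * M') (Nat.mul_comm M' p) a) =
      betaTo Kbar M' p (p * M') (Nat.mul_comm M' p) a :=
  swapTo_alphaTo _ hp hpM a

theorem swapL_betaTo (hp : p.Prime) (hpM : ¬ p ∣ M') (a : FF M') :
    swapL p M' hp hpM (betaTo Kbar M' p (p * M') (Nat.mul_comm M' p) a) =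
      alphaTo Kbar M' p (p * M') (Nat.mul_comm M' p) a :=
  swapTo_betaTo _ hp hpM a

theorem swapL_galois (hp : p.Prime) (hpM : ¬ p ∣ M') (σ : Kbar ≃ₐ[ℚ] Kbar)
    (x : FF (p * M')) :
    arithmeticGalois (modularFunctionFieldFull (p * M')) σ • swapL p M' hp hpM x =
      swapL p M' hp hpM (arithmeticGalois (modularFunctionFieldFull (p * M')) σ • x) :=
  swapTo_galois _ hp hpM σ x

theorem swapL_ne_zero (hp : p.Prime) (hpM : ¬ p ∣ M') {f : FF (p * M')} (hf : f ≠ 0) :
    swapL p M' hp hpM f ≠ 0 :=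
  (map_ne_zero_iff _ (swapL p M' hp hpM).toRingHom.injective).mpr hf

theorem wLHom_eq (hp : p.Prime) (hpM : ¬ p ∣ M') (x : JZero (p * M')) :
    wLHom p M' hp hpM x =
      jzeroCast (Nat.mul_comm M' p)
        (wPush M' p hp hpM (jzeroCast (Nat.mul_comm M' p).symm x)) :=
  wPushTo_eq _ hp hpM x

theorem jzeroCast_symm_apply {N N' : ℕ} [NeZero N] [NeZero N'] (h : N = N') (x : JZero N) :
    jzeroCast h.symm (jzeroCast h x) = x := by
  subst h
  rfl

theorem jzeroCast_irrel {N N' : ℕ} [NeZero N] [NeZero N'] (h h' : N = N') (x : JZero N) :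
    jzeroCast h x = jzeroCast h' x := rfl

/-- **`w_p` is an involution.** -/
theorem wLHom_wLHom (hp : p.Prime) (hpM : ¬ p ∣ M') (x : JZero (p * M')) :
    wLHom p M' hp hpM (wLHom p M' hp hpM x) = x := by
  rw [wLHom_eq, wLHom_eq, jzeroCast_symm_apply, wPush_wPush]
  exact jzeroCast_symm_apply (Nat.mul_comm M' p).symm x

variable (p M')

/-- **The Atkin–Lehner involution `w_p` on `J₀(pM')(ℚ̄)`.** -/
def wL (hp : p.Prime) (hpM : ¬ p ∣ M') : JZero (p * M') ≃+ JZero (p * M') where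
  toFun := wLHom p M' hp hpM
  invFun := wLHom p M' hp hpM
  left_inv := wLHom_wLHom hp hpM
  right_inv := wLHom_wLHom hp hpM
  map_add' := map_add _

variable {p M'}

@[simp] theorem wL_wL (hp : p.Prime) (hpM : ¬ p ∣ M') (x : JZero (p * M')) :
    wL p M' hp hpM (wL p M' hp hpM x) = x :=
  wLHom_wLHom hp hpM x

theorem wL_symm (hp : p.Prime) (hpM : ¬ p ∣ M') : (wL p M' hp hpM).symm = wL p M' hp hpM := rfl

theorem wL_apply (hp : p.Prime) (hpM : ¬ p ∣ M') (x : JZero (p * M')) :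
    wL p M' hp hpM x =
      jzeroCast (Nat.mul_comm M' p)
        (wPush M' p hp hpM (jzeroCast (Nat.mul_comm M' p).symm x)) :=
  wLHom_eq hp hpM x

/-- **`w_p` is Galois-equivariant.** -/
theorem wL_smul (hp : p.Prime) (hpM : ¬ p ∣ M')
    (σ : AlgebraicClosure ℚ ≃ₐ[ℚ] AlgebraicClosure ℚ) (x : JZero (p * M')) :
    wL p M' hp hpM (σ • x) = σ • wL p M' hp hpM x := by
  rw [wL_apply, wL_apply, jzeroCast_smul, wPush_smul, jzeroCast_smul]

/-- **`α_* ∘ w_p = β_*`.** -/
theorem alphaL_wL (hp : p.Prime) (hpM : ¬ p ∣ M') (x : JZero (p * M')) :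
    alphaL p M' (wL p M' hp hpM x) = betaL p M' x := by
  rw [wL_apply, alphaL_apply, betaL_apply]
  have h := jzeroCast_symm_apply (Nat.mul_comm M' p)
    (wPush M' p hp hpM (jzeroCast (Nat.mul_comm M' p).symm x))
  rw [jzeroCast_irrel (Nat.mul_comm p M') (Nat.mul_comm M' p).symm, h, alphaPush_wPush]

/-- **`β_* ∘ w_p = α_*`.** -/
theorem betaL_wL (hp : p.Prime) (hpM : ¬ p ∣ M') (x : JZero (p * M')) :
    betaL p M' (wL p M' hp hpM x) = alphaL p M' x := by
  rw [wL_apply, alphaL_apply, betaL_apply]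
  have h := jzeroCast_symm_apply (Nat.mul_comm M' p)
    (wPush M' p hp hpM (jzeroCast (Nat.mul_comm M' p).symm x))
  rw [jzeroCast_irrel (Nat.mul_comm p M') (Nat.mul_comm M' p).symm, h, betaPush_wPush]

/-- **`w_p` commutes with `T_ℓ`** for every prime `ℓ ≠ p`. -/
theorem wL_heckeOperatorBar (hp : p.Prime) (hpM : ¬ p ∣ M') (ℓ : Nat.Primes)
    (hne : (ℓ : ℕ) ≠ p) (x : JZero (p * M')) :
    wL p M' hp hpM (heckeOperatorBar (p * M') ℓ x) =
      heckeOperatorBar (p * M') ℓ (wL p M' hp hpM x) := by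
  rw [wL_apply, wL_apply, jzeroCast_heckeOperatorBar, wPush_heckeOperatorBar hp hpM ℓ hne,
    jzeroCast_heckeOperatorBar]

theorem wL_nsmul_eq_zero (hp : p.Prime) (hpM : ¬ p ∣ M') {m : ℕ} {x : JZero (p * M')}
    (hx : m • x = 0) : m • wL p M' hp hpM x = 0 := by
  rw [← map_nsmul, hx, map_zero]

/-- **The new part is `w_p`-stable.** -/
theorem wL_new (hp : p.Prime) (hpM : ¬ p ∣ M') {m : ℕ} {x : JZero (p * M')}
    (hx : m • x = 0 ∧ alphaL p M' x = 0 ∧ betaL p M' x = 0) :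
    m • wL p M' hp hpM x = 0 ∧ alphaL p M' (wL p M' hp hpM x) = 0 ∧
      betaL p M' (wL p M' hp hpM x) = 0 :=
  ⟨wL_nsmul_eq_zero hp hpM hx.1, by rw [alphaL_wL]; exact hx.2.2,
    by rw [betaL_wL]; exact hx.2.1⟩

/-- `w (x - w x) = -(x - w x)`. -/
theorem wL_sub_eigen (hp : p.Prime) (hpM : ¬ p ∣ M') (x : JZero (p * M')) :
    wL p M' hp hpM (x - wL p M' hp hpM x) = -(x - wL p M' hp hpM x) := by
  rw [map_sub, wL_wL, neg_sub]

/-- `w (x + w x) = x + w x`. -/
theorem wL_add_eigen (hp : p.Prime) (hpM : ¬ p ∣ M') (x : JZero (p * M')) :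
    wL p M' hp hpM (x + wL p M' hp hpM x) = x + wL p M' hp hpM x := by
  rw [map_add, wL_wL, add_comm]

/-- **Kummer form of `w_p`**: if `x = [D]` with `m D = div f`, then `w_p x = [D']` with
`m D' = div (w_p f)`. -/
theorem wL_mk_of_kummer (hp : p.Prime) (hpM : ¬ p ∣ M') {m : ℤ}
    (D : Divisor.degZero (K := Kbar) (F := FF (p * M'))) {f : FF (p * M')} (hf : f ≠ 0)
    (hD : ∀ w : Place Kbar (FF (p * M')),
      m * (D : Divisor Kbar (FF (p * M'))) w = w.ord f) :
    ∃ D' : Divisor.degZero (K := Kbar) (F := FF (p * M')),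
      wL p M' hp hpM (Pic0.mk D) = Pic0.mk D' ∧
      ∀ w : Place Kbar (FF (p * M')),
        m * (D' : Divisor Kbar (FF (p * M'))) w = w.ord (swapL p M' hp hpM f) :=
  wPushTo_mk_of_kummer (Nat.mul_comm M' p) hp hpM D hf hD

end Wall

end Fermat.Agent.Ribet.H801

end
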