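/-
RIBET / WALL-q, W-AL (helper801), part 4: uniqueness and involutivity of the Atkin–Lehner swap
over ANY field `L ⊇ ℚ` (in particular at a level `E ⊆ ℚ̄`, `F_{N,E} = A2.Mod.FE E N`).

* `ringHom_ext_alpha_beta_gen` : a ring homomorphism out of `F_{Mp,L}` is determined by its
                                 values on `α F_{M,L}` and `β F_{M,L}`;
* `swap_unique_gen`            : two swaps (`s ∘ α = β`, `s ∘ β = α`) agree;
* `swap_involutive_gen`        : a swap is an involution;
* `swap_bijective_gen`, `swapEquivGen` : a swap as a ring automorphism.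
-/
import Mathlib
import Fermat.Agent.S37.H88.ALSwap
import Fermat.Agent.A2.Mod.H751.Fricke

set_option autoImplicit false
set_option linter.style.haveILetI false
set_option linter.unusedSectionVars false
set_option synthInstance.maxHeartbeats 400000
set_option maxHeartbeats 1000000

noncomputable section

namespace Fermat.Agent.Ribet.H801

open AlgebraicCurve ModularCurve

section Gen

variable (L : Type*) [Field L] [Algebra ℚ L] (M p : ℕ) [NeZero M] [NeZero p]

/-- underlying series of the generator `j_d` over `L` -/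
theorem coe_jK_eq_gd_gen (N d : ℕ) [NeZero d] (hd : d ∣ N) :
    ((Fermat.Agent.A2.Mod.H751.jK L N d hd :
        ↥(laurentBaseChange L (modularFunctionFieldFull N))) : LaurentSeries L) =
      Fermat.Agent.S37.H88.gd L d := by
  show coeffEmb L (qExpand ℚ d jq) = qExpand L d (jqModC L)
  have h3 : coeffMap (algebraMap ℚ L) jq = jqModC L := by
    rw [← jqModC_rat]
    exact coeffMap_jqModC (algebraMap ℚ L)
  rw [coeffEmb, ModularCurve.coeffMap_qExpand, h3]

/-- every generator of `F_{Mp,L}` is an `α`-image or a `β`-image. -/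
theorem jK_eq_alpha_or_beta_gen (hp : p.Prime) (d : ℕ) [NeZero d] (hd : d ∣ M * p) :
    ∃ a : ↥(laurentBaseChange L (modularFunctionFieldFull M)),
      heckeAlphaBar L M p a = Fermat.Agent.A2.Mod.H751.jK L (M * p) d hd ∨
      heckeBetaBar L M p a = Fermat.Agent.A2.Mod.H751.jK L (M * p) d hd := by
  obtain ⟨a, ha | ha⟩ :=
    Fermat.Agent.S37.H88.gd_eq_alpha_or_beta (L := L) (N := M) (ℓ := p) hp hd
  · exact ⟨a, Or.inl (Subtype.ext (ha.trans (coe_jK_eq_gd_gen L (M * p) d hd).symm))⟩
  · exact ⟨a, Or.inr (Subtype.ext (ha.trans (coe_jK_eq_gd_gen L (M * p) d hd).symm))⟩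

variable {L M p}

/-- A ring homomorphism out of `F_{Mp,L}` is determined by its values on `α F_M` and `β F_M`. -/
theorem ringHom_ext_alpha_beta_gen (hp : p.Prime) {T : Type*} [DivisionRing T]
    (w w' : ↥(laurentBaseChange L (modularFunctionFieldFull (M * p))) →+* T)
    (hα : ∀ a : ↥(laurentBaseChange L (modularFunctionFieldFull M)),
      w (heckeAlphaBar L M p a) = w' (heckeAlphaBar L M p a))
    (hβ : ∀ a : ↥(laurentBaseChange L (modularFunctionFieldFull M)),
      w (heckeBetaBar L M p a) = w' (heckeBetaBar L M p a)) :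
    ∀ x, w x = w' x := by
  refine Fermat.Agent.A2.Mod.H751.ringHom_ext_FE (K := L) (M * p) w w' ?_ ?_
  · intro e
    have h1 : algebraMap L ↥(laurentBaseChange L (modularFunctionFieldFull (M * p))) e =
        heckeAlphaBar L M p (algebraMap L _ e) := (AlgHom.commutes _ e).symm
    rw [h1, hα]
  · intro d _ hd
    obtain ⟨a, ha | ha⟩ := jK_eq_alpha_or_beta_gen L M p hp d hd
    · rw [← ha, hα]
    · rw [← ha, hβ]

/-- **Uniqueness of the swap** over any field. -/
theorem swap_unique_gen (hp : p.Prime)
    (s s' : ↥(laurentBaseChange L (modularFunctionFieldFull (M * p))) →+*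
      ↥(laurentBaseChange L (modularFunctionFieldFull (M * p))))
    (hα : ∀ a, s (heckeAlphaBar L M p a) = heckeBetaBar L M p a)
    (hβ : ∀ a, s (heckeBetaBar L M p a) = heckeAlphaBar L M p a)
    (hα' : ∀ a, s' (heckeAlphaBar L M p a) = heckeBetaBar L M p a)
    (hβ' : ∀ a, s' (heckeBetaBar L M p a) = heckeAlphaBar L M p a) :
    ∀ x, s x = s' x :=
  ringHom_ext_alpha_beta_gen hp s s' (fun a => by rw [hα, hα']) (fun a => by rw [hβ, hβ'])

/-- **A swap is an involution** (any field). -/
theorem swap_involutive_gen (hp : p.Prime)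
    (s : ↥(laurentBaseChange L (modularFunctionFieldFull (M * p))) →+*
      ↥(laurentBaseChange L (modularFunctionFieldFull (M * p))))
    (hα : ∀ a, s (heckeAlphaBar L M p a) = heckeBetaBar L M p a)
    (hβ : ∀ a, s (heckeBetaBar L M p a) = heckeAlphaBar L M p a) :
    ∀ x, s (s x) = x :=
  ringHom_ext_alpha_beta_gen hp (s.comp s) (RingHom.id _)
    (fun a => by
      show s (s _) = _
      rw [hα, hβ]; rfl)
    (fun a => by
      show s (s _) = _
      rw [hβ, hα]; rfl)

/-- A swap as a ring automorphism. -/
def swapEquivGen (hp : p.Prime)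
    (s : ↥(laurentBaseChange L (modularFunctionFieldFull (M * p))) →+*
      ↥(laurentBaseChange L (modularFunctionFieldFull (M * p))))
    (hα : ∀ a, s (heckeAlphaBar L M p a) = heckeBetaBar L M p a)
    (hβ : ∀ a, s (heckeBetaBar L M p a) = heckeAlphaBar L M p a) :
    ↥(laurentBaseChange L (modularFunctionFieldFull (M * p))) ≃+*
      ↥(laurentBaseChange L (modularFunctionFieldFull (M * p))) where
  toFun := s
  invFun := s
  left_inv := swap_involutive_gen hp s hα hβ
  right_inv := swap_involutive_gen hp s hα hβ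
  map_mul' := map_mul s
  map_add' := map_add s

@[simp] theorem swapEquivGen_apply (hp : p.Prime)
    (s : ↥(laurentBaseChange L (modularFunctionFieldFull (M * p))) →+*
      ↥(laurentBaseChange L (modularFunctionFieldFull (M * p))))
    (hα : ∀ a, s (heckeAlphaBar L M p a) = heckeBetaBar L M p a)
    (hβ : ∀ a, s (heckeBetaBar L M p a) = heckeAlphaBar L M p a) (x) :
    swapEquivGen hp s hα hβ x = s x := rfl

end Gen

end Fermat.Agent.Ribet.H801

end
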