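/-
RIBET / W-DEG (helper801), final file: the degeneracy pair in the exact shape of the wall spec

    Wall.IsDegPair p M' {p} (alphaL p M') (betaL p M')

(`Fermat/Agent/Ribet/H944/WallSpec.lean`): `alphaL`, `betaL : J₀(p M')(ℚ̄) →+ J₀(M')(ℚ̄)` are the
push-forwards `α_*`, `β_*` along `F_{M'} ⊆ F_{M'p}` and `V_p : F_{M'} → F_{M'p}`; they are additive,
`G_ℚ`-equivariant and commute with `T_ℓ` for every prime `ℓ ≠ p` (also for `ℓ ∣ M'`).

No hypothesis on `p`, `M'` other than `p` prime: `p ∣ M'` is allowed.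
-/
import Mathlib
import Fermat.Agent.Ribet.H801.DegBeta
import Fermat.Agent.Ribet.H944.WallSpec

set_option autoImplicit false
set_option linter.style.haveILetI false

noncomputable section

namespace Fermat.Agent.Ribet.H801

open AlgebraicCurve ModularCurve
open Fermat.Agent.Ribet.Spec Fermat.Agent.Ribet.H944

section Cast

/-- Transport of `J₀(N)(ℚ̄)` along an equality of levels. -/
def jzeroCast {N N' : ℕ} [NeZero N] [NeZero N'] (h : N = N') : JZero N ≃+ JZero N' := by
  subst h
  exact AddEquiv.refl _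

theorem jzeroCast_smul {N N' : ℕ} [NeZero N] [NeZero N'] (h : N = N')
    (σ : AlgebraicClosure ℚ ≃ₐ[ℚ] AlgebraicClosure ℚ) (x : JZero N) :
    jzeroCast h (σ • x) = σ • jzeroCast h x := by
  subst h
  rfl

theorem jzeroCast_heckeOperatorBar {N N' : ℕ} [NeZero N] [NeZero N'] (h : N = N')
    (ℓ : Nat.Primes) (x : JZero N) :
    jzeroCast h (heckeOperatorBar N ℓ x) = heckeOperatorBar N' ℓ (jzeroCast h x) := by
  subst h
  rfl

theorem jzeroCast_rfl {N : ℕ} [NeZero N] (x : JZero N) : jzeroCast (rfl : N = N) x = x :=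
  rfl

end Cast

section Pair

variable (p M' : ℕ) [NeZero M'] [NeZero p] [NeZero (p * M')]

/-- `α_* : J₀(p M') → J₀(M')`, in the level convention of the wall spec. -/
def alphaL : JZero (p * M') →+ JZero M' :=
  (alphaPush M' p).comp (jzeroCast (Nat.mul_comm p M')).toAddMonoidHom

/-- `β_* : J₀(p M') → J₀(M')`, in the level convention of the wall spec. -/
def betaL : JZero (p * M') →+ JZero M' :=
  (betaPush M' p).comp (jzeroCast (Nat.mul_comm p M')).toAddMonoidHom

theorem alphaL_apply (x : JZero (p * M')) :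
    alphaL p M' x = alphaPush M' p (jzeroCast (Nat.mul_comm p M') x) :=
  rfl

theorem betaL_apply (x : JZero (p * M')) :
    betaL p M' x = betaPush M' p (jzeroCast (Nat.mul_comm p M') x) :=
  rfl

theorem alphaL_smul (σ : AlgebraicClosure ℚ ≃ₐ[ℚ] AlgebraicClosure ℚ) (x : JZero (p * M')) :
    alphaL p M' (σ • x) = σ • alphaL p M' x := by
  rw [alphaL_apply, alphaL_apply, jzeroCast_smul, alphaPush_smul]

theorem betaL_smul (σ : AlgebraicClosure ℚ ≃ₐ[ℚ] AlgebraicClosure ℚ) (x : JZero (p * M')) :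
    betaL p M' (σ • x) = σ • betaL p M' x := by
  rw [betaL_apply, betaL_apply, jzeroCast_smul, betaPush_smul]

theorem alphaL_heckeOperatorBar (hp : p.Prime) (ℓ : Nat.Primes) (hne : (ℓ : ℕ) ≠ p)
    (x : JZero (p * M')) :
    alphaL p M' (heckeOperatorBar (p * M') ℓ x) = heckeOperatorBar M' ℓ (alphaL p M' x) := by
  rw [alphaL_apply, alphaL_apply, jzeroCast_heckeOperatorBar,
    alphaPush_heckeOperatorBar M' p hp ℓ hne]

theorem betaL_heckeOperatorBar (hp : p.Prime) (ℓ : Nat.Primes) (hne : (ℓ : ℕ) ≠ p)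
    (x : JZero (p * M')) :
    betaL p M' (heckeOperatorBar (p * M') ℓ x) = heckeOperatorBar M' ℓ (betaL p M' x) := by
  rw [betaL_apply, betaL_apply, jzeroCast_heckeOperatorBar,
    betaPush_heckeOperatorBar M' p hp ℓ hne]

/-- **W-DEG**: `(α_*, β_*)` is a degeneracy pair in the sense of the wall spec, with exceptional
set `S₀ = {p}`. -/
theorem isDegPair_alphaL_betaL (hp : p.Prime) :
    Wall.IsDegPair p M' {p} (alphaL p M') (betaL p M') where
  galois_left := alphaL_smul p M'
  galois_right := betaL_smul p M'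
  hecke_left := fun ℓ hℓ x =>
    alphaL_heckeOperatorBar p M' hp ℓ (fun h => hℓ (Finset.mem_singleton.2 h)) x
  hecke_right := fun ℓ hℓ x =>
    betaL_heckeOperatorBar p M' hp ℓ (fun h => hℓ (Finset.mem_singleton.2 h)) x

end Pair

section Statements

/-- W-DEG as an existence statement (no `NeZero p` instance needed). -/
theorem exists_isDegPair (p M' : ℕ) [NeZero M'] [NeZero (p * M')] (hp : p.Prime) :
    ∃ α β : JZero (p * M') →+ JZero M', Wall.IsDegPair p M' {p} α β := by
  haveI : NeZero p := ⟨hp.ne_zero⟩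
  exact ⟨alphaL p M', betaL p M', isDegPair_alphaL_betaL p M' hp⟩

/-- **(W0)** in the shape used by the wall: an embedded `E[p] ⊂ J₀(pM')` which is not killed by
both degeneracy maps makes the eigensystem occur at level `M'`. -/
theorem occursIn_of_not_killed {E : WeierstrassCurve ℚ} (p M' : ℕ) [NeZero M'] [NeZero p]
    [NeZero (p * M')] (hp : p.Prime) {S : Finset ℕ} {a : ℕ → ℤ}
    (ι : Wall.ETorsion E p →+ JZero (p * M'))
    (hT : ∀ ℓ : Nat.Primes, (ℓ : ℕ) ∉ S → ∀ x : Wall.ETorsion E p,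
      heckeOperatorBar (p * M') ℓ (ι x) = a ℓ • ι x)
    (h : ∃ x, alphaL p M' (ι x) ≠ 0 ∨ betaL p M' (ι x) ≠ 0) :
    OccursIn M' p (S ∪ {p}) a :=
  Wall.occursIn_of_not_new (isDegPair_alphaL_betaL p M' hp) ι hT h

/-- The wall's `NewKernelStatement` is reduced to **(WP)** for the concrete pair
`(alphaL, betaL)`. -/
theorem newKernel_of_WP
    (hWP : ∀ (p M' : ℕ) [NeZero M'] [NeZero p] [NeZero (p * M')], p.Prime → p ≠ 2 → ¬ p ∣ M' →
      Wall.WPFor p M' (alphaL p M') (betaL p M')) :
    Wall.NewKernelStatement := by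
  intro p M' _ _ hp hp2 hpM'
  haveI : NeZero p := ⟨hp.ne_zero⟩
  exact ⟨{p}, alphaL p M', betaL p M', isDegPair_alphaL_betaL p M' hp, hWP p M' hp hp2 hpM'⟩

end Statements

end Fermat.Agent.Ribet.H801

end
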