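/-
RIBET / WALL-q, FROB-AL leaf NODE-SWAP (helper801): the crossing points of the two components of
the special fibre of `X₀(M q)` are FIXED by `Ψ = w_q ∘ σ`

(`σ` = action of a Frobenius lift `s` at `A ∣ q` on the coefficients, `w_q` = ANY ring
endomorphism `sw` of `F_{Mq,E}` with `sw ∘ α = β`, `sw ∘ β = α`, i.e. the Atkin–Lehner swap).

`Ψ` EXCHANGES the two components (`H279.comap_swap_eq_comap_fricke`) and acts on the residue
field as the `q`-power map, so `Ψ b ≡ b ^ q` modulo every crossing point `n ⊇ p∞ + p₀`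
(the supersingular points satisfy `w_q(e) = Frob(e)`):

* (e)  `b ≡ α a mod p∞`, `a ∈ B_M`           (`S35.G.H558.surj_inf`);
* `σ b ≡ α (σ a) mod p∞`                      (STABLE);
* `Ψ b ≡ β (σ a) mod p₀`                      (apply `sw`; FRICKE-SWAP);
* (K1) `β (σ a) ≡ (α a) ^ q mod p∞`           (KRON-FROB);
* hence `Ψ b ≡ (α a) ^ q ≡ b ^ q mod n`.

`nodeSwap` is UNCONDITIONAL (KRON-FROB `S35.G.H516.kronFrob`, STABLE `S35.G.H126.stable` and the
A2 MOD leaves are on main); it is the `NodeStable` input of the abstract core ALG-FROB-SWAP.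
-/
import Fermat.Agent.S35.G.H558.NodeRat
import Fermat.Agent.S35.G.H516.KronFrob
import Fermat.Agent.S35.G.H126.Stable
import Fermat.Agent.Ribet.H279.FrickeSwap
import Fermat.Agent.Ribet.H801.ALSwapGen

set_option autoImplicit false
set_option synthInstance.maxHeartbeats 400000
set_option maxHeartbeats 1600000
set_option linter.unusedSectionVars false
set_option linter.style.haveILetI false

noncomputable section

namespace Fermat.Agent.Ribet.H801

open ModularCurve HahnSeries Polynomial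
open Fermat.Agent.A2.Mod Fermat.Agent.S35.G Fermat.Agent.S35.G.H558

section NodeSwap

variable (A : ValuationSubring (AlgebraicClosure ℚ))
  (E : IntermediateField ℚ (AlgebraicClosure ℚ)) (M q : ℕ) [NeZero M] [NeZero q] (w : RE A E)

/-- **NODE-SWAP** (statement): every crossing point of the chart `B = chartAlg y` is stable under
`Ψ = sw ∘ σ`, for every swap `sw` and every Frobenius lift `s` at `A` stabilising `E`. -/
def NodeSwapStatement : Prop :=
  Setting A E M q w →
    ∀ (VM : ValuationSubring (FE E M)) (V : ValuationSubring (FE E (M * q)))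
      (W : FE E (M * q) ≃ₐ[E] FE E (M * q)),
      IsVinf A E M VM → IsVinf A E (M * q) V → IsFricke E (M * q) W →
      ∀ (yM : FE E M) (y : FE E (M * q)), IsCoordPair E M q yM y →
        GoodRedAt A E M w VM yM →
        ∀ c : Fermat.Agent.A2.SSChart w (chartAlg A E (M * q) y),
          IsCut A E (M * q) w V (chartAlg A E (M * q) y) c.p₁ →
          IsCut A E (M * q) w (V.comap (W : FE E (M * q) →+* FE E (M * q)))
            (chartAlg A E (M * q) y) c.p₂ →
          ∀ (s : AlgebraicClosure ℚ ≃ₐ[ℚ] AlgebraicClosure ℚ) (hs : StableUnder E s),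
            A.IsFrobeniusAt s q →
          ∀ (sw : FE E (M * q) →+* FE E (M * q)),
            (∀ a : FE E M, sw (αE E M q a) = βE E M q a) →
            (∀ a : FE E M, sw (βE E M q a) = αE E M q a) →
            ∀ Ψ : FE E (M * q) ≃+* FE E (M * q),
              (∀ f : FE E (M * q), Ψ f = sw (actE E (M * q) (resE E s hs) f)) →
              NodeStable (chartAlg A E (M * q) y) c Ψ

/-- **NODE-SWAP** from KRON-FROB and STABLE. -/
theorem nodeSwap_of (hK : KronFrobStatement A E M q w) (hSt : StableStatement A E) :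
    NodeSwapStatement A E M q w := by
  intro hS VM V W hVM hV hW yM y hy hgoodM c hcut₁ hcut₂ s hs hFrob sw hswα hswβ Ψ hΨ
    n _ hp₁ hp₂ b hbn b' hb'
  have hN : M * q ≠ 0 := Nat.mul_ne_zero hS.M_ne_zero hS.q_prime.ne_zero
  haveI : NeZero (M * q) := ⟨hN⟩
  have hsD : s ∈ A.decompositionSubgroup ℚ := hFrob.mem_decompositionSubgroup
  -- step (e): `b ≡ α a mod p∞`
  obtain ⟨hBM, -, hαB, hsurj⟩ := surj_inf A E M q w hS VM V hVM hV yM y hy hgoodM
  obtain ⟨a, ha, hba⟩ := hsurj (b : FE E (M * q)) b.2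
  -- the level-`M` chart is `σ`-stable
  have hσy : actE E M (resE E s hs) yM = yM := by
    rcases hy with ⟨rfl, -⟩ | ⟨rfl, -⟩
    · exact actE_jE E M 1 (one_dvd _) _
    · rw [map_inv₀, actE_jE]
  obtain ⟨a₁, ha₁⟩ : ∃ a₁ : FE E M, a₁ = actE E M (resE E s hs) a := ⟨_, rfl⟩
  have ha₁B : a₁ ∈ chartAlg A E M yM := ha₁ ▸ chartAlg_actE A E M hs hsD yM hσy ha
  -- (K1) at `a`
  have e1 : InW A E (M * q) V w (βE E M q a₁ - (αE E M q a) ^ q) := by
    rw [ha₁]
    exact hK hS VM V hVM hV s hs hFrob a (hBM a ha)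
  -- `σ b ≡ α (σ a) mod p∞`
  have e2 : InW A E (M * q) V w
      (actE E (M * q) (resE E s hs) (b : FE E (M * q)) - αE E M q a₁) := by
    have h1 := inW_actE A E w hSt (M * q) hN hS.dvr hS.unif V W hV hW hs hsD hba
    rw [map_sub, ← alpha_actE, ← ha₁] at h1
    exact h1
  -- `Ψ b ≡ β (σ a) mod p₀`
  have hinv := swap_involutive_gen (L := E) (M := M) (p := q) hS.q_prime sw hswα hswβ
  have e3 : InW A E (M * q) (V.comap (W : FE E (M * q) →+* FE E (M * q))) w
      ((b' : FE E (M * q)) - βE E M q a₁) := by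
    have h2 : (b' : FE E (M * q)) - βE E M q a₁ =
        sw (actE E (M * q) (resE E s hs) (b : FE E (M * q)) - αE E M q a₁) := by
      rw [map_sub, hswα, hb', hΨ]
    rw [h2, ← Fermat.Agent.Ribet.H279.inW_swap_iff_inW_fricke sw hswα hswβ hS hV hW, hinv]
    exact e2
  -- the computation in `B / n`
  have hαa : αE E M q a ∈ chartAlg A E (M * q) y := hαB a ha
  have hβa₁ : βE E M q a₁ ∈ chartAlg A E (M * q) y :=
    beta_mem_chartAlg A E M q w hS yM y hy ha₁B
  obtain ⟨ua, hua⟩ : ∃ u : chartAlg A E (M * q) y, (u : FE E (M * q)) = αE E M q a :=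
    ⟨⟨_, hαa⟩, rfl⟩
  obtain ⟨ub, hub⟩ : ∃ u : chartAlg A E (M * q) y, (u : FE E (M * q)) = βE E M q a₁ :=
    ⟨⟨_, hβa₁⟩, rfl⟩
  have m1 : b - ua ∈ n := hp₁ ((hcut₁ _).2 (by
    rw [← hua] at hba
    exact hba))
  have m2 : ub - ua ^ q ∈ n := hp₁ ((hcut₁ _).2 (by
    rw [← hua, ← hub] at e1
    exact e1))
  have m3 : b' - ub ∈ n := hp₂ ((hcut₂ _).2 (by
    rw [← hub] at e3
    exact e3))
  have m4 : b ^ q - ua ^ q ∈ n := Fermat.Agent.S35.H558.pow_sub_pow_mem_fix m1 q
  have m5 : b ^ q ∈ n := n.pow_mem_of_mem hbn q hS.q_prime.pos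
  have key : b' = (b' - ub) + (ub - ua ^ q) - (b ^ q - ua ^ q) + b ^ q := by ring
  rw [key]
  exact n.add_mem (n.sub_mem (n.add_mem m3 m2) m4) m5

/-- **NODE-SWAP, unconditional.** -/
theorem nodeSwap : NodeSwapStatement A E M q w :=
  nodeSwap_of A E M q w (Fermat.Agent.S35.G.H516.kronFrob A E M q w)
    (Fermat.Agent.S35.G.H126.stable A E)

end NodeSwap

end Fermat.Agent.Ribet.H801

end
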