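/-
RIBET / WALL-q, FROB-AL: the LEVEL statement (helper801).

`E ⊆ ℚ̄` a good level for the place `A ∣ q`, stable under a Frobenius lift `s`;
`σ` = action of `s` on the coefficients of `F_E(M q)`, `sw` = ANY ring endomorphism of `F_E(M q)`
with `sw ∘ α = β`, `sw ∘ β = α` (the Atkin–Lehner swap `w_q`), `Ψ = sw ∘ σ`.

`levelSwap : LevelSwapAt A E M q m` (UNCONDITIONAL, for `q ∤ M`, `HasAux M q`, `q ∤ m`):
for `u ≠ 0` with `m ∣ div u` whose residues at `V∞` and at `V₀` lie in `kˣ · (κˣ)^m`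
(`S35.H433.GSplitV`),
    `sw (σ u) · u ^ q = h ^ m`   for some `h ≠ 0`.
(In `J₀(qM)[m]`: `Frob_q = - q · w_q` on the toric classes.)

Mirror of `S35.H891.levelFrob_of_partsU`, with the abstract core `H729.swapToricVal` (helper729),
MODEL `S35.G.H862.model`, STABLE/COORD `S35.G.H126`, FRICKE-SWAP `H279` and NODE-SWAP
`H801.nodeSwap`.
-/
import Fermat.Agent.S35.H891.LevelU
import Fermat.Agent.S35.G.H862.Model
import Fermat.Agent.S35.G.H126.Stable
import Fermat.Agent.Ribet.H729.SwapToricVal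
import Fermat.Agent.Ribet.H801.NodeSwap

set_option autoImplicit false
set_option synthInstance.maxHeartbeats 400000
set_option maxHeartbeats 1600000
set_option linter.unusedSectionVars false
set_option linter.style.haveILetI false

noncomputable section

namespace Fermat.Agent.Ribet.H801

open ModularCurve AlgebraicCurve
open Fermat.Agent.A2.Mod Fermat.Agent.S35.G

section FrobRes1

variable (A : ValuationSubring (AlgebraicClosure ℚ))
  (E : IntermediateField ℚ (AlgebraicClosure ℚ))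

/-- **FROB-RES, first power.**  A Frobenius lift `s` at `A` stabilising `E` induces on
`R_E = A ∩ E` an automorphism which is `r ↦ r ^ q` modulo the maximal ideal. -/
theorem frobRes_one {q : ℕ} (s : AlgebraicClosure ℚ ≃ₐ[ℚ] AlgebraicClosure ℚ)
    (hs : StableUnder E s) (hF : A.IsFrobeniusAt s q) :
    ∃ ψR : RE A E ≃+* RE A E,
      (∀ r : RE A E, (resE E s hs) (r : E) = ((ψR r : RE A E) : E)) ∧
      ∀ r : RE A E, ψR r - r ^ q ∈ IsLocalRing.maximalIdeal (RE A E) := by
  have hsD : s ∈ A.decompositionSubgroup ℚ := hF.mem_decompositionSubgroup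
  let φ : RE A E →+* RE A E :=
    { toFun := fun r => ⟨(resE E s hs) (r : E),
        Fermat.Agent.S35.G.H126.resE_mem_RE A E s hs hsD _ r.2⟩
      map_one' := Subtype.ext (map_one _)
      map_mul' := fun a b => Subtype.ext (map_mul _ (a : E) (b : E))
      map_zero' := Subtype.ext (map_zero _)
      map_add' := fun a b => Subtype.ext (map_add _ (a : E) (b : E)) }
  have hφ : Function.Bijective φ := by
    constructor
    · intro a b hab
      have h := congrArg Subtype.val hab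
      exact Subtype.ext ((resE E s hs).injective h)
    · intro b
      obtain ⟨a, ha⟩ := (resE E s hs).surjective (b : E)
      have hmem : a ∈ RE A E := by
        apply Fermat.Agent.S35.G.H126.mem_RE_of_resE_mem A E s hs hsD
        rw [ha]
        exact b.2
      exact ⟨⟨a, hmem⟩, Subtype.ext ha⟩
  refine ⟨RingEquiv.ofBijective φ hφ, fun r => rfl, fun r => ?_⟩
  rw [← ValuationSubring.coe_mem_nonunits_iff, Fermat.Agent.A2.Mod.H549.mem_nonunits_comap]
  have hr : ((r : E) : AlgebraicClosure ℚ) ∈ A := r.2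
  exact Fermat.Agent.S35.G.H126.frob_sub_pow_mem_nonunits A hF hr

end FrobRes1

section Level

variable (A : ValuationSubring (AlgebraicClosure ℚ))
  (E : IntermediateField ℚ (AlgebraicClosure ℚ)) (M q m : ℕ) [NeZero M] [NeZero q]

/-- **FROB-AL at the level `E`.**  For every Frobenius lift `s` at `A` stabilising `E`, every
swap `sw` and every `u ≠ 0` with `m ∣ div u` whose residues at `V∞` and `V₀` lie in
`kˣ · (κˣ)^m`:  `sw (σ u) · u ^ q` is an `m`-th power. -/
def LevelSwapAt : Prop :=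
  A.LiesOverPrime q → Fermat.Agent.A2.GoodField A E →
    ∀ (s : AlgebraicClosure ℚ ≃ₐ[ℚ] AlgebraicClosure ℚ) (hs : StableUnder E s),
      A.IsFrobeniusAt s q →
    ∀ (sw : FE E (M * q) →+* FE E (M * q)),
      (∀ a : FE E M, sw (αE E M q a) = βE E M q a) →
      (∀ a : FE E M, sw (βE E M q a) = αE E M q a) →
    ∀ (V : ValuationSubring (FE E (M * q))) (W : FE E (M * q) ≃ₐ[E] FE E (M * q)),
      IsVinf A E (M * q) V → IsFricke E (M * q) W →
    ∀ u : FE E (M * q), u ≠ 0 → Fermat.Agent.A2.DivisibleDiv E m u →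
      Fermat.Agent.S35.H433.GSplitV (RE A E) V m u →
      Fermat.Agent.S35.H433.GSplitV (RE A E)
        (V.comap (W : FE E (M * q) →+* FE E (M * q))) m u →
      ∃ h : FE E (M * q), h ≠ 0 ∧
        sw (actE E (M * q) (resE E s hs) u) * u ^ q = h ^ m

/-- **FROB-AL at the level `E`, unconditional.** -/
theorem levelSwap (hq : q.Prime) (hqM : ¬ q ∣ M) (haux : HasAux M q) (hm : 0 < m)
    (hqm : ¬ q ∣ m) : LevelSwapAt A E M q m := by
  intro hA hE s hs hsF sw hswα hswβ V W hV hW u hu hdiv hG₁ hG₂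
  haveI : IsDiscreteValuationRing ↥(RE A E) := hE.dvr
  haveI : HenselianLocalRing ↥(RE A E) := hE.henselian
  haveI : IsAlgClosed (IsLocalRing.ResidueField ↥(RE A E)) := hE.algClosed
  obtain ⟨w, hw⟩ := IsDiscreteValuationRing.exists_irreducible ↥(RE A E)
  have hS : Setting A E M q w :=
    { q_prime := hq
      q_not_dvd := hqM
      M_ne_zero := NeZero.ne M
      lies_over := hA
      dvr := hE.dvr
      unif := hw }
  have hN0 : M * q ≠ 0 := Nat.mul_ne_zero (NeZero.ne M) (NeZero.ne q)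
  obtain ⟨V', W', VM, hV', hW', hVM, hg1, hg2, hDeg, -, -, cf, ci, hcf, hci⟩ :=
    Fermat.Agent.S35.G.H862.model A E M q w hS hE haux
  obtain rfl : V' = V := by
    ext f
    rw [hV' f, hV f]
  obtain rfl : W' = W := H553.isFricke_unique E hN0 hW' hW
  obtain ⟨hx, hfr, hconst⟩ := hDeg hq hqM
  have hpos : 0 < Module.finrank
      (IntermediateField.adjoin E ({xE E M q} : Set (FE E (M * q))))
      (FE E (M * q)) := by
    rw [hfr]
    have h1 := dedekindPsi_pos_of_ne_zero M (NeZero.ne M)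
    positivity
  have hfin : FiniteDimensional
      (IntermediateField.adjoin E ({xE E M q} : Set (FE E (M * q))))
      (FE E (M * q)) := Module.finite_of_finrank_pos hpos
  obtain ⟨ψR, hψR, hQ⟩ := frobRes_one A E s hs hsF
  have hsD : s ∈ A.decompositionSubgroup ℚ := hsF.mem_decompositionSubgroup
  have hsD' : s.symm ∈ A.decompositionSubgroup ℚ := inv_mem hsD
  obtain ⟨hcomm, hσV⟩ := Fermat.Agent.S35.G.H126.stable A E (M * q) hN0 hE.dvr V' W' hV hW
    s hs hsD
  obtain ⟨hcomm', hσV'⟩ := Fermat.Agent.S35.G.H126.stable A E (M * q) hN0 hE.dvr V' W' hV hW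
    s.symm (Fermat.Agent.S35.H891.stableUnder_symm E hs) hsD'
  set V₀ : ValuationSubring (FE E (M * q)) :=
    V'.comap (W' : FE E (M * q) →+* FE E (M * q)) with hV₀
  -- `Ψ = sw ∘ σ`
  set Ψ : FE E (M * q) ≃+* FE E (M * q) :=
    (actE E (M * q) (resE E s hs)).trans (swapEquivGen hq sw hswα hswβ) with hΨdef
  have hΨ : ∀ f : FE E (M * q), Ψ f = sw (actE E (M * q) (resE E s hs) f) := fun f => rfl
  have hinv := swap_involutive_gen (L := E) (M := M) (p := q) hq sw hswα hswβ
  have hσiff : ∀ f : FE E (M * q),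
      actE E (M * q) (resE E s hs) f ∈ V' ↔ f ∈ V' := by
    intro f
    refine ⟨fun h => ?_, fun h => hσV f h⟩
    have := hσV' _ h
    rwa [Fermat.Agent.S35.H891.actE_symm_actE] at this
  have hσiff₀ : ∀ f : FE E (M * q),
      actE E (M * q) (resE E s hs) f ∈ V₀ ↔ f ∈ V₀ := by
    intro f
    show W' (actE E (M * q) (resE E s hs) f) ∈ V' ↔ W' f ∈ V'
    rw [← hcomm]
    exact hσiff (W' f)
  have hswV : ∀ f : FE E (M * q), sw f ∈ V' ↔ f ∈ V₀ := fun f =>
    Fermat.Agent.Ribet.H279.swap_mem_iff_fricke_mem sw hswα hswβ hS hV hW f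
  have hswV₀ : ∀ f : FE E (M * q), sw f ∈ V₀ ↔ f ∈ V' := by
    intro f
    rw [← hswV (sw f), hinv]
  have hΨ₁₂ : ∀ f : FE E (M * q), Ψ f ∈ V' ↔ f ∈ V₀ := fun f => by
    rw [hΨ, hswV, hσiff₀]
  have hΨ₂₁ : ∀ f : FE E (M * q), Ψ f ∈ V₀ ↔ f ∈ V' := fun f => by
    rw [hΨ, hswV₀, hσiff]
  -- semilinearity
  have hΨE : ∀ e : E, Ψ (algebraMap E (FE E (M * q)) e) =
      algebraMap E (FE E (M * q)) ((resE E s hs).toRingEquiv e) := by
    intro e
    rw [hΨ]
    have h1 : actE E (M * q) (resE E s hs) (algebraMap E (FE E (M * q)) e) =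
        algebraMap E (FE E (M * q)) ((resE E s hs).toRingEquiv e) :=
      arithmeticRingAut_algebraMap (modularFunctionFieldFull (M * q)) _ e
    rw [h1]
    exact Fermat.Agent.Ribet.H279.swapE_algebraMap sw hswα _
  have hΨRE : ∀ r : ↥(RE A E),
      (resE E s hs).toRingEquiv (algebraMap ↥(RE A E) E r) =
        algebraMap ↥(RE A E) E (ψR r) := fun r => hψR r
  have hfrob : ∀ r : ↥(RE A E), ∃ t : ↥(RE A E), ψR r - r ^ q = w * t := by
    intro r
    have h1 := hQ r
    rw [hw.maximalIdeal_eq, Ideal.mem_span_singleton] at h1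
    exact h1
  have hΨx : Ψ (xE E M q) = xE E M q := by
    rw [hΨ, Fermat.Agent.S35.G.H126.coord E M q (resE E s hs)]
    exact Fermat.Agent.Ribet.H279.swapE_xE sw hswα hswβ
  -- the two valuation rings
  have hwm : w ∈ IsLocalRing.maximalIdeal ↥(RE A E) :=
    (IsLocalRing.mem_maximalIdeal w).2 hw.not_isUnit
  have hw0 : algebraMap ↥(RE A E) (FE E (M * q)) w ≠ 0 := by
    intro h0
    have h1 : algebraMap E (FE E (M * q)) (w : E) = 0 := h0
    rw [map_eq_zero] at h1
    exact hw.ne_zero (Subtype.ext h1)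
  have hGa₁ := H13.isGaussOver_xE hw hV hx
  have hGa₂ := H13.isGaussOver_comap_xE hw hV hW hx
  have hc₁ : Fermat.Agent.S35.H433.ValCtx w (xE E M q) V' :=
    Fermat.Agent.S35.H891.valCtx_of_isGaussOver hwm hw0 hGa₁
  have hc₂ : Fermat.Agent.S35.H433.ValCtx w (xE E M q) V₀ :=
    Fermat.Agent.S35.H891.valCtx_of_isGaussOver hwm hw0 hGa₂
  have hne : V' ≠ V₀ := fun h =>
    H553.vzeroNe (P := A) (E := E) (M := M) (q := q) w hS V' W' hV hW h.symm
  -- the crossing points
  have hnf := nodeSwap A E M q w hS VM V' W' hVM hV hW _ _ (Or.inl ⟨rfl, rfl⟩) hg1 cf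
    hcf.cut₁ hcf.cut₂ s hs hsF sw hswα hswβ Ψ hΨ
  have hni := nodeSwap A E M q w hS VM V' W' hVM hV hW _ _ (Or.inr ⟨rfl, rfl⟩) hg2 ci
    hci.cut₁ hci.cut₂ s hs hsF sw hswα hswβ Ψ hΨ
  obtain ⟨z, hz, hzz⟩ :=
    Fermat.Agent.Ribet.H729.swapToricVal
      (R := ↥(RE A E)) (E := E) (F := ↥(FE E (M * q)))
      w hw q m hq (Fermat.Agent.A2.T1.H669.natCast_mem_maximalIdeal_RE E hA) hm hqm
      (xE E M q) hx hfin hconst
      (chartAlg A E (M * q) (xE E M q))
      (chartAlg A E (M * q) (xE E M q)⁻¹)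
      (fun _ => Iff.rfl) (fun _ => Iff.rfl) cf ci V' V₀ hc₁ hc₂ hne
      Ψ (resE E s hs).toRingEquiv ψR
      q hq.pos hΨE hΨRE hfrob hΨx hΨ₁₂ hΨ₂₁
      (fun n hn h1 h2 b hb hb' => hnf n hn h1 h2 b hb ⟨_, hb'⟩ rfl)
      (fun n hn h1 h2 b hb hb' => hni n hn h1 h2 b hb ⟨_, hb'⟩ rfl)
      u hu hdiv hG₁ hG₂
  exact ⟨z, hz, hzz⟩

end Level

end Fermat.Agent.Ribet.H801

end
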